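import Mathlib
import Fermat.Agent.S13.Minkowski

set_option autoImplicit false

/-!
# Bridge between valuation subrings of `ℚ̄` and primes of number fields
-/

namespace Fermat.Agent.Bridge

open scoped Pointwise

section Abstract

variable {C B G : Type*} [CommRing C] [CommRing B] [Algebra C B] [Group G]
  [MulSemiringAction G B]

/-- Transitivity step: if `σ` preserves `C = B ^ N` and the prime `Q ∩ C`, some translate `n * σ`
with `n ∈ N` stabilises `Q`. -/
theorem exists_mul_smul_eq (N : Subgroup G) [SMulCommClass N C B] [Algebra.IsInvariant C B N]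
    [TopologicalSpace N] [CompactSpace N] [TotallyDisconnectedSpace N] [IsTopologicalGroup N]
    [TopologicalSpace B] [DiscreteTopology B] [ContinuousSMul N B]
    (Q : Ideal B) [Q.IsPrime] (σ : G) (τ : C ≃+* C)
    (hστ : ∀ c : C, σ • algebraMap C B c = algebraMap C B (τ c))
    (hτ : ∀ c : C, algebraMap C B c ∈ Q ↔ algebraMap C B (τ c) ∈ Q) :
    ∃ n ∈ N, (n * σ) • Q = Q := by
  have h1 : (σ • Q).under C = Q.under C := by
    ext c
    obtain ⟨c', rfl⟩ := τ.surjective c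
    rw [Ideal.mem_comap, Ideal.mem_comap, ← hστ, Ideal.smul_mem_pointwise_smul_iff, hστ]
    exact hτ c'
  obtain ⟨n₁, hn₁⟩ := Algebra.IsInvariant.exists_smul_of_under_eq_of_profinite (A := C) (G := N)
    (σ • Q) Q h1
  exact ⟨n₁, n₁.2, by rw [mul_smul]; exact hn₁.symm⟩

/-- Lifting with prescribed residual action: if `σ` acts on `C = B ^ N` through `τ` and
`e₀` is an automorphism of `B ⧸ Q` compatible with `τ`, then some translate `n * σ` with `n ∈ N`
stabilises `Q` and induces `e₀` on `B ⧸ Q`. -/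
theorem exists_mul_induces (N : Subgroup G) [SMulCommClass N C B] [Algebra.IsInvariant C B N]
    [TopologicalSpace N] [CompactSpace N] [TotallyDisconnectedSpace N] [IsTopologicalGroup N]
    [TopologicalSpace B] [DiscreteTopology B] [ContinuousSMul N B]
    (Q : Ideal B) [Q.IsPrime] (σ : G) (τ : C ≃+* C)
    (hστ : ∀ c : C, σ • algebraMap C B c = algebraMap C B (τ c))
    (e₀ : (B ⧸ Q) ≃+* (B ⧸ Q))
    (he₀ : ∀ c : C, e₀ (Ideal.Quotient.mk Q (algebraMap C B c)) =
      Ideal.Quotient.mk Q (algebraMap C B (τ c))) :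
    ∃ n ∈ N, (n * σ) • Q = Q ∧
      ∀ b : B, Ideal.Quotient.mk Q ((n * σ) • b) = e₀ (Ideal.Quotient.mk Q b) := by
  have hτ : ∀ c : C, algebraMap C B c ∈ Q ↔ algebraMap C B (τ c) ∈ Q := by
    intro c
    rw [← Ideal.Quotient.eq_zero_iff_mem, ← Ideal.Quotient.eq_zero_iff_mem, ← he₀]
    exact (EmbeddingLike.map_eq_zero_iff (f := e₀)).symm
  obtain ⟨n₁, hn₁, hQ⟩ := exists_mul_smul_eq N Q σ τ hστ hτ
  set σ₁ : G := n₁ * σ with hσ₁
  have hσ₁C : ∀ c : C, σ₁ • algebraMap C B c = algebraMap C B (τ c) := by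
    intro c
    rw [hσ₁, mul_smul, hστ]
    exact smul_algebraMap (⟨n₁, hn₁⟩ : N) (τ c)
  let e₁ : (B ⧸ Q) ≃+* (B ⧸ Q) :=
    Ideal.quotientEquiv Q Q (MulSemiringAction.toRingEquiv G B σ₁) hQ.symm
  have he₁ : ∀ b : B, e₁ (Ideal.Quotient.mk Q b) = Ideal.Quotient.mk Q (σ₁ • b) := fun b => rfl
  let e : (B ⧸ Q) ≃ₐ[C ⧸ Q.under C] (B ⧸ Q) :=
    { e₁.symm.trans e₀ with
      commutes' := by
        rintro ⟨c⟩
        obtain ⟨c', rfl⟩ := τ.surjective c
        show e₀ (e₁.symm (Ideal.Quotient.mk Q (algebraMap C B (τ c')))) =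
          Ideal.Quotient.mk Q (algebraMap C B (τ c'))
        have h2 : e₁.symm (Ideal.Quotient.mk Q (algebraMap C B (τ c'))) =
            Ideal.Quotient.mk Q (algebraMap C B c') := by
          rw [RingEquiv.symm_apply_eq, he₁, hσ₁C]
        rw [h2, he₀] }
  have he : ∀ x, e x = e₀ (e₁.symm x) := fun x => rfl
  obtain ⟨n₂, hn₂⟩ := Ideal.Quotient.stabilizerHom_surjective_of_profinite (G := N)
    (Q.under C) Q e
  have hn₂Q : (n₂.1 : G) • Q = Q := n₂.2
  refine ⟨(n₂.1 : G) * n₁, N.mul_mem n₂.1.2 hn₁, ?_, ?_⟩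
  · rw [mul_assoc, mul_smul, hQ, hn₂Q]
  · intro b
    have h3 := DFunLike.congr_fun hn₂ (Ideal.Quotient.mk Q (σ₁ • b))
    rw [Ideal.Quotient.stabilizerHom_apply, he, ← he₁, RingEquiv.symm_apply_apply] at h3
    rw [← h3, mul_assoc, mul_smul]
    rfl

end Abstract

open scoped NumberField
open Fermat.Agent.S54 Fermat.Agent.S13

local notation "Qbar" => AlgebraicClosure ℚ
local notation "GQ" => (AlgebraicClosure ℚ ≃ₐ[ℚ] AlgebraicClosure ℚ)
local notation "Zbar" => integralClosure ℤ (AlgebraicClosure ℚ)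

section Defs

variable {K : Type*} [Field K] (φ : K →+* Qbar)

/-- The map induced by `φ` on rings of integers. -/
noncomputable def intHom : 𝓞 K →+* Zbar where
  toFun x := ⟨φ x, x.isIntegral_coe.map φ.toIntAlgHom⟩
  map_one' := Subtype.ext (by simp)
  map_mul' x y := Subtype.ext (by simp)
  map_zero' := Subtype.ext (by simp)
  map_add' x y := Subtype.ext (by simp)

@[simp] theorem coe_intHom (x : 𝓞 K) : ((intHom φ x : Zbar) : Qbar) = φ x := rfl

theorem intHom_injective : Function.Injective (intHom φ) := by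
  intro x y h
  have := congrArg Subtype.val h
  exact NumberField.RingOfIntegers.ext (φ.injective this)

/-- The prime of `𝓞 K` below a valuation subring of `ℚ̄`. -/
noncomputable def primeBelow (A : ValuationSubring Qbar) : Ideal (𝓞 K) :=
  (centre A).comap (intHom φ)

instance primeBelow_isPrime (A : ValuationSubring Qbar) : (primeBelow φ A).IsPrime :=
  Ideal.comap_isPrime _ _

theorem mem_primeBelow_iff {A : ValuationSubring Qbar} {x : 𝓞 K} :
    x ∈ primeBelow φ A ↔ φ x ∈ A.nonunits := by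
  rw [primeBelow, Ideal.mem_comap, mem_centre_iff, ValuationSubring.mem_nonunits_iff]
  rfl

theorem natCast_mem_primeBelow {A : ValuationSubring Qbar} {ℓ : ℕ} (hA : A.LiesOverPrime ℓ) :
    (ℓ : 𝓞 K) ∈ primeBelow φ A := by
  rw [mem_primeBelow_iff]
  have : (ℓ : Qbar) ∈ A.nonunits := hA
  simpa using this

/-- The pointwise stabiliser of `φ K`. -/
def fixer : Subgroup GQ where
  carrier := {σ | ∀ x : K, σ (φ x) = φ x}
  one_mem' := fun _ => rfl
  mul_mem' := fun {a b} ha hb x => by rw [AlgEquiv.mul_apply, hb, ha]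
  inv_mem' := fun {a} ha x => by
    rw [AlgEquiv.aut_inv, AlgEquiv.symm_apply_eq, ha]

theorem mem_fixer {σ : GQ} : σ ∈ fixer φ ↔ ∀ x : K, σ (φ x) = φ x := Iff.rfl

/-- The image of `φ` as an intermediate field. -/
noncomputable def imageField : IntermediateField ℚ Qbar :=
  φ.fieldRange.toIntermediateField (fun q => by
    rw [eq_ratCast]
    exact SubfieldClass.ratCast_mem _ q)

theorem mem_imageField {y : Qbar} : y ∈ imageField φ ↔ ∃ x : K, φ x = y := Iff.rfl

theorem fixer_eq : fixer φ = (imageField φ).fixingSubgroup := by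
  ext σ
  rw [IntermediateField.mem_fixingSubgroup_iff, mem_fixer]
  constructor
  · rintro h _ ⟨x, rfl⟩
    exact h x
  · intro h x
    exact h _ ⟨x, rfl⟩

theorem fixer_isClosed : IsClosed (fixer φ : Set GQ) := by
  rw [fixer_eq]
  exact InfiniteGalois.fixingSubgroup_isClosed _

theorem exists_of_fixed {y : Qbar} (hy : ∀ σ ∈ fixer φ, σ y = y) : ∃ x : K, φ x = y := by
  rw [← mem_imageField, ← InfiniteGalois.fixedField_fixingSubgroup (imageField φ), ← fixer_eq]
  intro σ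
  exact hy σ.1 σ.2

/-- `Zbar` as an algebra over `𝓞 K` through `φ`. -/
noncomputable abbrev intAlgebra : Algebra (𝓞 K) Zbar := (intHom φ).toAlgebra

theorem smulCommClass_fixer :
    letI := intAlgebra φ
    SMulCommClass (fixer φ) (𝓞 K) Zbar := by
  let := intAlgebra φ
  refine ⟨fun n c b => ?_⟩
  rw [Algebra.smul_def, Algebra.smul_def, smul_mul']
  congr 1
  apply Subtype.ext
  exact n.2 c

theorem isInvariant_fixer :
    letI := intAlgebra φ
    Algebra.IsInvariant (𝓞 K) Zbar (fixer φ) := by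
  let := intAlgebra φ
  refine ⟨fun b hb => ?_⟩
  obtain ⟨x, hx⟩ := exists_of_fixed φ (y := (b : Qbar)) (fun σ hσ =>
    congrArg Subtype.val (hb ⟨σ, hσ⟩))
  have hint : IsIntegral ℤ x := by
    have h1 : IsIntegral ℤ (φ.toIntAlgHom x) := by
      show IsIntegral ℤ (φ x)
      rw [hx]; exact b.2
    exact (isIntegral_algHom_iff φ.toIntAlgHom φ.injective).mp h1
  exact ⟨⟨x, hint⟩, Subtype.ext hx⟩

end Defs

section Lift

variable {K : Type*} [Field K] (φ : K →+* Qbar)

/-- Every automorphism of `K` extends to `ℚ̄`. -/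
theorem exists_extension (τ : K ≃+* K) : ∃ σ : GQ, ∀ x : K, σ (φ x) = φ (τ x) := by
  let := φ.toAlgebra
  have : CharZero K := φ.charZero
  have : IsScalarTower ℚ K Qbar := IsScalarTower.of_algebraMap_eq' (Subsingleton.elim _ _)
  have : Algebra.IsAlgebraic K Qbar := Algebra.IsAlgebraic.tower_top (K := ℚ) K
  have : IsAlgClosure K Qbar := ⟨inferInstance, inferInstance⟩
  refine ⟨(IsAlgClosure.equivOfEquiv Qbar Qbar τ).toRatAlgEquiv, fun x => ?_⟩
  exact IsAlgClosure.equivOfEquiv_algebraMap Qbar Qbar τ x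

open NumberField.RingOfIntegers in
/-- Lifting an automorphism of `K` preserving `Q ∩ 𝓞 K` to the stabiliser of `Q`. -/
theorem exists_lift_stabilizer (Q : Ideal Zbar) [Q.IsPrime] (τ : K ≃+* K)
    (hτ : ∀ c : 𝓞 K, intHom φ c ∈ Q ↔ intHom φ (mapRingEquiv τ c) ∈ Q) :
    ∃ σ : GQ, (∀ x, σ (φ x) = φ (τ x)) ∧ σ • Q = Q := by
  obtain ⟨σ₀, hσ₀⟩ := exists_extension φ τ
  let := intAlgebra φ
  have := smulCommClass_fixer φ
  have := isInvariant_fixer φ
  let : TopologicalSpace Zbar := ⊥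
  have : DiscreteTopology Zbar := ⟨rfl⟩
  have : ContinuousSMul GQ Zbar := by
    refine continuousSMul_iff_stabilizer_isOpen.mpr (fun x => ?_)
    convert stabilizer_isOpen_of_isIntegral (K := ℚ) (x : AlgebraicClosure ℚ) using 2
    ext g
    simp [MulAction.mem_stabilizer_iff, Subtype.ext_iff]
  have : CompactSpace (fixer φ) := isCompact_iff_compactSpace.mp (fixer_isClosed φ).isCompact
  obtain ⟨n, hn, hQ⟩ := exists_mul_smul_eq (C := 𝓞 K) (fixer φ) Q σ₀ (mapRingEquiv τ)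
    (fun c => Subtype.ext (hσ₀ c)) hτ
  refine ⟨n * σ₀, fun x => ?_, hQ⟩
  rw [AlgEquiv.mul_apply, hσ₀]
  exact hn _

open NumberField.RingOfIntegers in
/-- Lifting an automorphism of `K` to the stabiliser of `Q` with prescribed residual action. -/
theorem exists_lift_induces (Q : Ideal Zbar) [Q.IsPrime] (τ : K ≃+* K)
    (e₀ : (Zbar ⧸ Q) ≃+* (Zbar ⧸ Q))
    (he₀ : ∀ c : 𝓞 K, e₀ (Ideal.Quotient.mk Q (intHom φ c)) =
      Ideal.Quotient.mk Q (intHom φ (mapRingEquiv τ c))) :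
    ∃ σ : GQ, (∀ x, σ (φ x) = φ (τ x)) ∧ σ • Q = Q ∧
      ∀ b : Zbar, Ideal.Quotient.mk Q (σ • b) = e₀ (Ideal.Quotient.mk Q b) := by
  obtain ⟨σ₀, hσ₀⟩ := exists_extension φ τ
  let := intAlgebra φ
  have := smulCommClass_fixer φ
  have := isInvariant_fixer φ
  let : TopologicalSpace Zbar := ⊥
  have : DiscreteTopology Zbar := ⟨rfl⟩
  have : ContinuousSMul GQ Zbar := by
    refine continuousSMul_iff_stabilizer_isOpen.mpr (fun x => ?_)
    convert stabilizer_isOpen_of_isIntegral (K := ℚ) (x : AlgebraicClosure ℚ) using 2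
    ext g
    simp [MulAction.mem_stabilizer_iff, Subtype.ext_iff]
  have : CompactSpace (fixer φ) := isCompact_iff_compactSpace.mp (fixer_isClosed φ).isCompact
  obtain ⟨n, hn, hQ, hind⟩ := exists_mul_induces (C := 𝓞 K) (fixer φ) Q σ₀ (mapRingEquiv τ)
    (fun c => Subtype.ext (hσ₀ c)) e₀ he₀
  refine ⟨n * σ₀, fun x => ?_, hQ, hind⟩
  rw [AlgEquiv.mul_apply, hσ₀]
  exact hn _

end Lift

section Translate

variable {A : ValuationSubring Qbar} {σ : GQ}

theorem natCast_mem_centre {ℓ : ℕ} (hA : A.LiesOverPrime ℓ) : (ℓ : Zbar) ∈ centre A := by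
  rw [mem_centre_iff]
  have := A.mem_nonunits_iff.mp hA
  simpa using this

theorem smul_mem_of_mem_decomposition (hσ : σ ∈ A.decompositionSubgroup ℚ) {x : Qbar}
    (hx : x ∈ A) : σ x ∈ A := by
  have h1 : σ • A = A := hσ
  rw [← h1]
  exact ⟨x, hx, rfl⟩

theorem smul_mem_nonunits_of_mem_decomposition (hσ : σ ∈ A.decompositionSubgroup ℚ) {x : Qbar}
    (hx : x ∈ A.nonunits) : σ x ∈ A.nonunits := by
  by_cases h0 : x = 0
  · subst h0; simp
  rw [ValuationSubring.mem_nonunits_iff, ← not_le]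
  intro h
  have h1 : (σ x)⁻¹ ∈ A := by
    rw [← A.valuation_le_one_iff, map_inv₀]
    exact inv_le_one_of_one_le₀ h
  have h2 : σ⁻¹ ((σ x)⁻¹) ∈ A :=
    smul_mem_of_mem_decomposition ((A.decompositionSubgroup ℚ).inv_mem hσ) h1
  have h3 : σ⁻¹ ((σ x)⁻¹) = x⁻¹ := by
    rw [map_inv₀]
    congr 1
    exact σ.symm_apply_apply x
  rw [h3, ← A.valuation_le_one_iff, map_inv₀] at h2
  have h4 := A.mem_nonunits_iff.mp hx
  have h5 : A.valuation x ≠ 0 := (A.valuation.ne_zero_iff).mpr h0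
  have h6 : 1 ≤ A.valuation x := (inv_le_one₀ (zero_lt_iff.mpr h5)).mp h2
  exact absurd h4 (not_lt.mpr h6)

theorem smul_centre_of_mem_decomposition (hσ : σ ∈ A.decompositionSubgroup ℚ) :
    σ • centre A = centre A := by
  have key : ∀ {τ : GQ}, τ ∈ A.decompositionSubgroup ℚ → τ • centre A ≤ centre A := by
    intro τ hτ b hb
    rw [Ideal.mem_pointwise_smul_iff_inv_smul_mem] at hb
    have h1 : ((τ⁻¹ • b : Zbar) : Qbar) ∈ A.nonunits :=
      A.mem_nonunits_iff.mpr (mem_centre_iff.mp hb)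
    have h2 := smul_mem_nonunits_of_mem_decomposition hτ h1
    rw [mem_centre_iff]
    have h3 : τ ((τ⁻¹ • b : Zbar) : Qbar) = (b : Qbar) := by
      rw [integralClosure.coe_smul]
      exact τ.apply_symm_apply _
    rw [h3] at h2
    exact A.mem_nonunits_iff.mp h2
  apply le_antisymm (key hσ)
  have := key ((A.decompositionSubgroup ℚ).inv_mem hσ)
  intro b hb
  rw [Ideal.mem_pointwise_smul_iff_inv_smul_mem]
  exact this ((Ideal.smul_mem_pointwise_smul_iff).mpr hb)

theorem residue_smul_inclHom (hD : σ ∈ A.decompositionSubgroup ℚ) (c : Zbar) :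
    (⟨σ, hD⟩ : A.decompositionSubgroup ℚ) • IsLocalRing.residue A (inclHom A c) =
      IsLocalRing.residue A (inclHom A (σ • c)) := by
  rw [← IsLocalRing.ResidueField.residue_smul]
  rfl

theorem residue_inclHom_eq_iff {b c : Zbar} :
    IsLocalRing.residue A (inclHom A b) = IsLocalRing.residue A (inclHom A c) ↔
      b - c ∈ centre A := by
  rw [← sub_eq_zero, ← map_sub, ← map_sub, IsLocalRing.residue_eq_zero_iff]
  rfl

/-- Elements of the inertia group of `A` act trivially on `Zbar` modulo the centre of `A`. -/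
theorem sub_mem_centre_of_mem_inertia (hσ : σ ∈ A.inertiaSubgroupIn ℚ) (b : Zbar) :
    σ • b - b ∈ centre A := by
  obtain ⟨⟨σ', hD⟩, hI, rfl⟩ := hσ
  rw [← residue_inclHom_eq_iff]
  have h1 : MulSemiringAction.toRingAut (A.decompositionSubgroup ℚ) (IsLocalRing.ResidueField A)
      ⟨σ', hD⟩ = 1 := hI
  have h2 := DFunLike.congr_fun h1 (IsLocalRing.residue A (inclHom A b))
  have h3 := residue_smul_inclHom hD b
  exact h3.symm.trans h2

theorem mem_decomposition_of_mem_inertia (hσ : σ ∈ A.inertiaSubgroupIn ℚ) :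
    σ ∈ A.decompositionSubgroup ℚ := by
  obtain ⟨⟨σ', hD⟩, -, rfl⟩ := hσ
  exact hD

/-- `σ ∈ I_A` iff `σ` is in the inertia group of the centre of `A`. -/
theorem mem_inertia_iff {ℓ : ℕ} (hℓ : ℓ.Prime) (hA : A.LiesOverPrime ℓ) :
    σ ∈ A.inertiaSubgroupIn ℚ ↔ ∀ b : Zbar, σ • b - b ∈ centre A :=
  ⟨fun h b => sub_mem_centre_of_mem_inertia h b, fun h => inertia_centre_le hℓ hA h⟩

/-- Frobenius elements of `A` act as `x ↦ x ^ ℓ` on `Zbar` modulo the centre of `A`. -/
theorem sub_pow_mem_centre_of_isFrobeniusAt {ℓ : ℕ} (hσ : A.IsFrobeniusAt σ ℓ) (b : Zbar) :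
    σ • b - b ^ ℓ ∈ centre A := by
  obtain ⟨hD, hF⟩ := hσ
  rw [← residue_inclHom_eq_iff, ← residue_smul_inclHom hD, hF, map_pow, map_pow]

/-- Criterion for being a Frobenius element in terms of the ring of all algebraic integers. -/
theorem isFrobeniusAt_of_centre {ℓ : ℕ} (hℓ : ℓ.Prime) (hA : A.LiesOverPrime ℓ)
    (hσ : σ • centre A = centre A) (hfrob : ∀ b : Zbar, σ • b - b ^ ℓ ∈ centre A) :
    A.IsFrobeniusAt σ ℓ := by
  have hD := mem_decompositionSubgroup_of_smul_centre hℓ hA hσ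
  refine ⟨hD, fun x => ?_⟩
  have key : ∀ c : Zbar,
      (⟨σ, hD⟩ : A.decompositionSubgroup ℚ) • IsLocalRing.residue A (inclHom A c) =
        IsLocalRing.residue A (inclHom A c) ^ ℓ := by
    intro c
    rw [residue_smul_inclHom hD, ← map_pow, ← map_pow, residue_inclHom_eq_iff]
    exact hfrob c
  obtain ⟨a, rfl⟩ := IsLocalRing.residue_surjective x
  obtain ⟨b, s, hs, h⟩ := exists_fraction_of_mem hℓ hA a.2
  have h1 : a * inclHom A s = inclHom A b := Subtype.ext h
  have h2 : IsLocalRing.residue A a * IsLocalRing.residue A (inclHom A s) =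
      IsLocalRing.residue A (inclHom A b) := by rw [← map_mul, h1]
  have hs0 : IsLocalRing.residue A (inclHom A s) ≠ 0 := by
    rw [Ne, IsLocalRing.residue_eq_zero_iff]
    exact hs
  have h3 := congrArg (fun y => (⟨σ, hD⟩ : A.decompositionSubgroup ℚ) • y) h2
  simp only [smul_mul', key] at h3
  rw [← h2, mul_pow] at h3
  exact mul_right_cancel₀ (pow_ne_zero _ hs0) h3

theorem isFrobeniusAt_iff {ℓ : ℕ} (hℓ : ℓ.Prime) (hA : A.LiesOverPrime ℓ) :
    A.IsFrobeniusAt σ ℓ ↔ σ • centre A = centre A ∧ ∀ b : Zbar, σ • b - b ^ ℓ ∈ centre A :=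
  ⟨fun h => ⟨smul_centre_of_mem_decomposition h.mem_decompositionSubgroup,
    sub_pow_mem_centre_of_isFrobeniusAt h⟩, fun h => isFrobeniusAt_of_centre hℓ hA h.1 h.2⟩

theorem mem_decomposition_iff {ℓ : ℕ} (hℓ : ℓ.Prime) (hA : A.LiesOverPrime ℓ) :
    σ ∈ A.decompositionSubgroup ℚ ↔ σ • centre A = centre A :=
  ⟨smul_centre_of_mem_decomposition, mem_decompositionSubgroup_of_smul_centre hℓ hA⟩

end Translate

section Places

variable {K : Type*} [Field K] (φ : K →+* Qbar)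

theorem isMaximal_of_natCast_mem {R : Type*} [CommRing R] [Algebra.IsIntegral ℤ R] {ℓ : ℕ}
    (hℓ : ℓ.Prime) (P : Ideal R) [P.IsPrime] (hP : (ℓ : R) ∈ P) : P.IsMaximal := by
  set p : Ideal ℤ := Ideal.span {(ℓ : ℤ)} with hp
  have hpmax : p.IsMaximal :=
    PrincipalIdealRing.isMaximal_of_irreducible (Nat.prime_iff_prime_int.mp hℓ).irreducible
  have hle : p ≤ P.under ℤ := by
    rw [hp, Ideal.span_le, Set.singleton_subset_iff]
    show algebraMap ℤ _ (ℓ : ℤ) ∈ P
    simpa using hP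
  have hpP : p = P.under ℤ := hpmax.eq_of_le (Ideal.IsPrime.ne_top inferInstance) hle
  apply Ideal.isMaximal_of_isIntegral_of_isMaximal_comap (R := ℤ) P
  have : Ideal.comap (algebraMap ℤ _) P = p := hpP.symm
  rw [this]; exact hpmax

/-- **T1**: every prime of `𝓞 K` containing `ℓ` lies below a place of `ℚ̄` above `ℓ`. -/
theorem exists_place {ℓ : ℕ} (hℓ : ℓ.Prime) (P : Ideal (𝓞 K)) [P.IsPrime]
    (hP : (ℓ : 𝓞 K) ∈ P) :
    ∃ A : ValuationSubring Qbar, A.LiesOverPrime ℓ ∧ primeBelow φ A = P := by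
  let f : 𝓞 K →+* Qbar := φ.comp (algebraMap (𝓞 K) K)
  have hf : Function.Injective f :=
    φ.injective.comp NumberField.RingOfIntegers.coe_injective
  let I : Ideal f.range := P.map f.rangeRestrict
  have hI : I ≠ ⊤ := by
    intro h
    rw [Ideal.eq_top_iff_one, Ideal.mem_map_iff_of_surjective _ f.rangeRestrict_surjective] at h
    obtain ⟨x, hx, hx1⟩ := h
    have h1 : f x = f 1 := by
      rw [map_one]; exact congrArg Subtype.val hx1
    rw [hf h1] at hx
    exact (Ideal.IsPrime.ne_top inferInstance) ((Ideal.eq_top_iff_one P).mpr hx)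
  obtain ⟨B, -, hB⟩ := Ideal.image_subset_nonunits_valuationSubring I hI
  have hle : P ≤ primeBelow φ B := by
    intro x hx
    rw [mem_primeBelow_iff]
    exact hB ⟨f.rangeRestrict x, Ideal.mem_map_of_mem _ hx, rfl⟩
  have hmax : P.IsMaximal := isMaximal_of_natCast_mem hℓ P hP
  have heq : P = primeBelow φ B := hmax.eq_of_le (Ideal.IsPrime.ne_top inferInstance) hle
  refine ⟨B, ?_, heq.symm⟩
  have := (mem_primeBelow_iff φ).mp (hle hP)
  show (ℓ : Qbar) ∈ B.nonunits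
  simpa using this

variable {φ}

open NumberField.RingOfIntegers

theorem smul_intHom {σ : GQ} {τ : K ≃+* K} (h : ∀ x, σ (φ x) = φ (τ x)) (c : 𝓞 K) :
    σ • intHom φ c = intHom φ (mapRingEquiv τ c) :=
  Subtype.ext (h c)

/-! ### T3: restriction -/

theorem mem_primeBelow_iff_of_mem_decomposition {A : ValuationSubring Qbar} {σ : GQ}
    {τ : K ≃+* K} (h : ∀ x, σ (φ x) = φ (τ x)) (hσ : σ ∈ A.decompositionSubgroup ℚ) (c : 𝓞 K) :
    c ∈ primeBelow φ A ↔ mapRingEquiv τ c ∈ primeBelow φ A := by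
  have h1 := smul_centre_of_mem_decomposition hσ
  rw [primeBelow, Ideal.mem_comap, Ideal.mem_comap, ← smul_intHom h]
  conv_rhs => rw [← h1]
  exact (Ideal.smul_mem_pointwise_smul_iff).symm

theorem sub_mem_primeBelow_of_mem_inertia {A : ValuationSubring Qbar} {σ : GQ}
    {τ : K ≃+* K} (h : ∀ x, σ (φ x) = φ (τ x)) (hσ : σ ∈ A.inertiaSubgroupIn ℚ) (c : 𝓞 K) :
    mapRingEquiv τ c - c ∈ primeBelow φ A := by
  rw [primeBelow, Ideal.mem_comap, map_sub, ← smul_intHom h]
  exact sub_mem_centre_of_mem_inertia hσ _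

theorem sub_pow_mem_primeBelow_of_isFrobeniusAt {A : ValuationSubring Qbar} {σ : GQ} {ℓ : ℕ}
    {τ : K ≃+* K} (h : ∀ x, σ (φ x) = φ (τ x)) (hσ : A.IsFrobeniusAt σ ℓ) (c : 𝓞 K) :
    mapRingEquiv τ c - c ^ ℓ ∈ primeBelow φ A := by
  rw [primeBelow, Ideal.mem_comap, map_sub, map_pow, ← smul_intHom h]
  exact sub_pow_mem_centre_of_isFrobeniusAt hσ _

/-! ### T4: lifting -/

/-- An automorphism of `K` preserving the prime below `A` lifts to the decomposition group. -/
theorem exists_lift_decomposition {A : ValuationSubring Qbar} {ℓ : ℕ} (hℓ : ℓ.Prime)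
    (hA : A.LiesOverPrime ℓ) (τ : K ≃+* K)
    (hτ : ∀ c : 𝓞 K, c ∈ primeBelow φ A ↔ mapRingEquiv τ c ∈ primeBelow φ A) :
    ∃ σ ∈ A.decompositionSubgroup ℚ, ∀ x, σ (φ x) = φ (τ x) := by
  obtain ⟨σ, h, hQ⟩ := exists_lift_stabilizer φ (centre A) τ hτ
  exact ⟨σ, mem_decompositionSubgroup_of_smul_centre hℓ hA hQ, h⟩

/-- An automorphism of `K` in the inertia group of the prime below `A` lifts to the inertia
group of `A`. -/
theorem exists_lift_inertia {A : ValuationSubring Qbar} {ℓ : ℕ} (hℓ : ℓ.Prime)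
    (hA : A.LiesOverPrime ℓ) (τ : K ≃+* K)
    (hτ : ∀ c : 𝓞 K, mapRingEquiv τ c - c ∈ primeBelow φ A) :
    ∃ σ ∈ A.inertiaSubgroupIn ℚ, ∀ x, σ (φ x) = φ (τ x) := by
  obtain ⟨σ, h, -, hind⟩ := exists_lift_induces φ (centre A) τ (RingEquiv.refl _) (by
    intro c
    rw [RingEquiv.refl_apply, eq_comm, Ideal.Quotient.eq, ← map_sub]
    exact hτ c)
  refine ⟨σ, (mem_inertia_iff hℓ hA).mpr (fun b => ?_), h⟩
  rw [← Ideal.Quotient.eq]
  exact hind b

/-- A Frobenius automorphism of `K` at the prime below `A` lifts to a Frobenius element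
at `A`. -/
theorem exists_lift_frobenius {A : ValuationSubring Qbar} {ℓ : ℕ} (hℓ : ℓ.Prime)
    (hA : A.LiesOverPrime ℓ) (τ : K ≃+* K)
    (hτ : ∀ c : 𝓞 K, mapRingEquiv τ c - c ^ ℓ ∈ primeBelow φ A) :
    ∃ σ : GQ, A.IsFrobeniusAt σ ℓ ∧ ∀ x, σ (φ x) = φ (τ x) := by
  obtain ⟨σF, hσF, hfrob⟩ := exists_stabilizer_frobenius hℓ (centre A) (natCast_mem_centre hA)
  let e₀ : (Zbar ⧸ centre A) ≃+* (Zbar ⧸ centre A) :=
    Ideal.quotientEquiv _ _ (MulSemiringAction.toRingEquiv GQ Zbar σF) hσF.symm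
  have he₀ : ∀ b : Zbar, e₀ (Ideal.Quotient.mk _ b) = Ideal.Quotient.mk _ (b ^ ℓ) := by
    intro b
    show Ideal.Quotient.mk _ (σF • b) = _
    rw [Ideal.Quotient.eq]
    exact hfrob b
  obtain ⟨σ, h, hQ, hind⟩ := exists_lift_induces φ (centre A) τ e₀ (by
    intro c
    rw [he₀, eq_comm, Ideal.Quotient.eq, ← map_pow, ← map_sub]
    exact hτ c)
  refine ⟨σ, isFrobeniusAt_of_centre hℓ hA hQ (fun b => ?_), h⟩
  rw [← Ideal.Quotient.eq, hind, he₀]

end Places

section Conj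

variable {A A' : ValuationSubring Qbar}

theorem mem_nonunits_iff_inv {x : Qbar} : x ∈ A.nonunits ↔ x = 0 ∨ x⁻¹ ∉ A := by
  by_cases h0 : x = 0
  · subst h0; simp
  rw [ValuationSubring.mem_nonunits_iff, ← A.valuation_le_one_iff, map_inv₀, not_le]
  have h5 : 0 < A.valuation x := zero_lt_iff.mpr ((A.valuation.ne_zero_iff).mpr h0)
  rw [one_lt_inv₀ h5]
  simp [h0]

theorem mem_smul_nonunits_iff {σ : GQ} {x : Qbar} :
    x ∈ (σ • A).nonunits ↔ σ⁻¹ x ∈ A.nonunits := by
  rw [mem_nonunits_iff_inv, mem_nonunits_iff_inv,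
    ValuationSubring.mem_pointwise_smul_iff_inv_smul_mem]
  have h1 : σ⁻¹ • x⁻¹ = (σ⁻¹ x)⁻¹ := map_inv₀ σ⁻¹ x
  rw [h1]
  have h2 : σ⁻¹ x = 0 ↔ x = 0 := map_eq_zero_iff _ (σ⁻¹).injective
  rw [h2]

theorem liesOverPrime_smul {ℓ : ℕ} (hA : A.LiesOverPrime ℓ) (σ : GQ) :
    (σ • A).LiesOverPrime ℓ := by
  show (ℓ : Qbar) ∈ (σ • A).nonunits
  rw [mem_smul_nonunits_iff, map_natCast]
  exact hA

theorem centre_smul (σ : GQ) : centre (σ • A) = σ • centre A := by
  ext b
  rw [Ideal.mem_pointwise_smul_iff_inv_smul_mem, mem_centre_iff, mem_centre_iff,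
    ← ValuationSubring.mem_nonunits_iff, ← ValuationSubring.mem_nonunits_iff,
    mem_smul_nonunits_iff]
  rfl

/-- A place of `ℚ̄` above a prime is determined by its centre on `Zbar`. -/
theorem le_of_centre_eq {ℓ : ℕ} (hℓ : ℓ.Prime) (hA : A.LiesOverPrime ℓ)
    (h : centre A = centre A') : A ≤ A' := by
  intro x hx
  obtain ⟨b, s, hs, hxs⟩ := exists_fraction_of_mem hℓ hA hx
  rw [h] at hs
  rw [← A'.valuation_le_one_iff]
  have h2 := congrArg A'.valuation hxs
  rw [map_mul, valuation_eq_one_of_notMem_centre hs, mul_one] at h2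
  rw [h2]
  exact valuation_coe_le_one A' _

theorem eq_of_centre_eq {ℓ : ℕ} (hℓ : ℓ.Prime) (hA : A.LiesOverPrime ℓ)
    (hA' : A'.LiesOverPrime ℓ) (h : centre A = centre A') : A = A' :=
  le_antisymm (le_of_centre_eq hℓ hA h) (le_of_centre_eq hℓ hA' h.symm)

theorem mem_decomposition_smul_iff {σ τ : GQ} :
    τ ∈ (σ • A).decompositionSubgroup ℚ ↔ σ⁻¹ * τ * σ ∈ A.decompositionSubgroup ℚ := by
  rw [MulAction.mem_stabilizer_iff, MulAction.mem_stabilizer_iff, mul_smul, mul_smul,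
    inv_smul_eq_iff]

theorem mem_inertia_smul_iff {ℓ : ℕ} (hℓ : ℓ.Prime) (hA : A.LiesOverPrime ℓ) {σ τ : GQ} :
    τ ∈ (σ • A).inertiaSubgroupIn ℚ ↔ σ⁻¹ * τ * σ ∈ A.inertiaSubgroupIn ℚ := by
  rw [mem_inertia_iff hℓ (liesOverPrime_smul hA σ), mem_inertia_iff hℓ hA, centre_smul]
  constructor
  · intro h b
    have := h (σ • b)
    rw [Ideal.mem_pointwise_smul_iff_inv_smul_mem, smul_sub, inv_smul_smul] at this
    rwa [mul_smul, mul_smul]
  · intro h b
    have := h (σ⁻¹ • b)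
    rw [Ideal.mem_pointwise_smul_iff_inv_smul_mem, smul_sub]
    rwa [mul_smul, mul_smul, smul_inv_smul] at this

theorem isFrobeniusAt_smul_iff {ℓ : ℕ} (hℓ : ℓ.Prime) (hA : A.LiesOverPrime ℓ) {σ τ : GQ} :
    (σ • A).IsFrobeniusAt τ ℓ ↔ A.IsFrobeniusAt (σ⁻¹ * τ * σ) ℓ := by
  rw [isFrobeniusAt_iff hℓ (liesOverPrime_smul hA σ), isFrobeniusAt_iff hℓ hA, centre_smul]
  refine and_congr ?_ ?_
  · rw [mul_smul, mul_smul, inv_smul_eq_iff]
  constructor
  · intro h b
    have := h (σ • b)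
    rw [Ideal.mem_pointwise_smul_iff_inv_smul_mem, smul_sub, smul_pow', inv_smul_smul] at this
    rwa [mul_smul, mul_smul]
  · intro h b
    have := h (σ⁻¹ • b)
    rw [Ideal.mem_pointwise_smul_iff_inv_smul_mem, smul_sub, smul_pow']
    rwa [mul_smul, mul_smul, smul_inv_smul] at this

end Conj

section Transitive

variable {K : Type*} [Field K] (φ : K →+* Qbar)

theorem primeBelow_smul_of_mem_fixer {A : ValuationSubring Qbar} {n : GQ} (hn : n ∈ fixer φ) :
    primeBelow φ (n • A) = primeBelow φ A := by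
  ext x
  rw [mem_primeBelow_iff, mem_primeBelow_iff, mem_smul_nonunits_iff]
  have : n⁻¹ (φ x) = φ x := (fixer φ).inv_mem hn x
  rw [this]

/-- **T6**: places of `ℚ̄` above the same prime of `𝓞 K` are conjugate under `Gal(ℚ̄/φ K)`. -/
theorem exists_smul_eq_of_primeBelow_eq {A A' : ValuationSubring Qbar} {ℓ : ℕ} (hℓ : ℓ.Prime)
    (hA : A.LiesOverPrime ℓ) (hA' : A'.LiesOverPrime ℓ)
    (h : primeBelow φ A = primeBelow φ A') : ∃ n ∈ fixer φ, n • A = A' := by
  let := intAlgebra φ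
  have := smulCommClass_fixer φ
  have := isInvariant_fixer φ
  let : TopologicalSpace Zbar := ⊥
  have : DiscreteTopology Zbar := ⟨rfl⟩
  have : ContinuousSMul GQ Zbar := by
    refine continuousSMul_iff_stabilizer_isOpen.mpr (fun x => ?_)
    convert stabilizer_isOpen_of_isIntegral (K := ℚ) (x : AlgebraicClosure ℚ) using 2
    ext g
    simp [MulAction.mem_stabilizer_iff, Subtype.ext_iff]
  have : CompactSpace (fixer φ) := isCompact_iff_compactSpace.mp (fixer_isClosed φ).isCompact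
  obtain ⟨n, hn⟩ := Algebra.IsInvariant.exists_smul_of_under_eq_of_profinite (A := 𝓞 K)
    (G := fixer φ) (centre A) (centre A') h
  refine ⟨n, n.2, eq_of_centre_eq hℓ (liesOverPrime_smul hA _) hA' ?_⟩
  rw [centre_smul]
  exact hn.symm

theorem under_int_eq_span {R : Type*} [CommRing R] [Algebra ℤ R] {ℓ : ℕ}
    (hℓ : ℓ.Prime) (P : Ideal R) [P.IsPrime] (hP : (ℓ : R) ∈ P) :
    P.under ℤ = Ideal.span {(ℓ : ℤ)} := by
  have hpmax : (Ideal.span {(ℓ : ℤ)}).IsMaximal :=
    PrincipalIdealRing.isMaximal_of_irreducible (Nat.prime_iff_prime_int.mp hℓ).irreducible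
  have hle : Ideal.span {(ℓ : ℤ)} ≤ P.under ℤ := by
    rw [Ideal.span_le, Set.singleton_subset_iff]
    show algebraMap ℤ _ (ℓ : ℤ) ∈ P
    simpa using hP
  exact (hpmax.eq_of_le (Ideal.IsPrime.ne_top inferInstance) hle).symm

/-- All places of `ℚ̄` above `ℓ` are conjugate. -/
theorem exists_smul_eq {A A' : ValuationSubring Qbar} {ℓ : ℕ} (hℓ : ℓ.Prime)
    (hA : A.LiesOverPrime ℓ) (hA' : A'.LiesOverPrime ℓ) : ∃ σ : GQ, σ • A = A' := by
  let : TopologicalSpace Zbar := ⊥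
  have : DiscreteTopology Zbar := ⟨rfl⟩
  have : ContinuousSMul GQ Zbar := by
    refine continuousSMul_iff_stabilizer_isOpen.mpr (fun x => ?_)
    convert stabilizer_isOpen_of_isIntegral (K := ℚ) (x : AlgebraicClosure ℚ) using 2
    ext g
    simp [MulAction.mem_stabilizer_iff, Subtype.ext_iff]
  obtain ⟨σ, hσ⟩ := Algebra.IsInvariant.exists_smul_of_under_eq_of_profinite (A := ℤ)
    (G := GQ) (centre A) (centre A')
    ((under_int_eq_span hℓ _ (natCast_mem_centre hA)).trans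
      (under_int_eq_span hℓ _ (natCast_mem_centre hA')).symm)
  refine ⟨σ, eq_of_centre_eq hℓ (liesOverPrime_smul hA _) hA' ?_⟩
  rw [centre_smul]
  exact hσ.symm

end Transitive

end Fermat.Agent.Bridge
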