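import Mathlib
import Fermat.Agent.Common.PlaceBridge

set_option autoImplicit false

/-!
# Bridge, part 2: valuations, Galois groups of number fields, ramification
-/

namespace Fermat.Agent.Bridge

open scoped Pointwise NumberField
open Fermat.Agent.S54 Fermat.Agent.S13 IsDedekindDomain

local notation "Qbar" => AlgebraicClosure ℚ
local notation "GQ" => (AlgebraicClosure ℚ ≃ₐ[ℚ] AlgebraicClosure ℚ)
local notation "Zbar" => integralClosure ℤ (AlgebraicClosure ℚ)

section Val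

variable {K : Type*} [Field K] [NumberField K] {φ : K →+* Qbar} {A : ValuationSubring Qbar}
  {v : HeightOneSpectrum (𝓞 K)}

omit [NumberField K] in
theorem valuation_int_le_one (c : 𝓞 K) : A.valuation (φ c) ≤ 1 :=
  valuation_coe_le_one A (intHom φ c)

omit [NumberField K] in
theorem valuation_int_lt_one_iff {c : 𝓞 K} : A.valuation (φ c) < 1 ↔ c ∈ primeBelow φ A := by
  rw [mem_primeBelow_iff, ValuationSubring.mem_nonunits_iff]

omit [NumberField K] in
theorem valuation_int_eq_one {c : 𝓞 K} (hc : c ∉ primeBelow φ A) : A.valuation (φ c) = 1 :=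
  le_antisymm (valuation_int_le_one c) (not_lt.mp (fun h => hc (valuation_int_lt_one_iff.mp h)))

theorem valuation_le_one_of (hv : v.asIdeal = primeBelow φ A) {x : K}
    (hx : v.valuation K x ≤ 1) : A.valuation (φ x) ≤ 1 := by
  obtain ⟨n, d, h⟩ := v.exists_primeCompl_mul_eq_of_integer x hx
  have hd : (d : 𝓞 K) ∉ primeBelow φ A := by rw [← hv]; exact d.2
  have h1 := congrArg (fun y => A.valuation (φ y)) h
  simp only [map_mul] at h1
  have h2 : A.valuation (φ (algebraMap (𝓞 K) K d)) = 1 := valuation_int_eq_one hd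
  rw [h2, mul_one] at h1
  rw [h1]
  exact valuation_int_le_one n

theorem valuation_lt_one_of (hv : v.asIdeal = primeBelow φ A) {x : K}
    (hx : v.valuation K x < 1) : A.valuation (φ x) < 1 := by
  obtain ⟨n, d, h⟩ := v.exists_primeCompl_mul_eq_of_integer x hx.le
  have hd : (d : 𝓞 K) ∉ primeBelow φ A := by rw [← hv]; exact d.2
  have h1 := congrArg (fun y => A.valuation (φ y)) h
  simp only [map_mul] at h1
  have h2 : A.valuation (φ (algebraMap (𝓞 K) K d)) = 1 := valuation_int_eq_one hd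
  rw [h2, mul_one] at h1
  rw [h1]
  have h3 := congrArg (v.valuation K) h
  rw [map_mul, (v.valuation_eq_one_iff_notMem (K := K)).mpr d.2, mul_one] at h3
  rw [h3, v.valuation_lt_one_iff_mem, hv] at hx
  exact valuation_int_lt_one_iff.mpr hx

/-- **T2**. -/
theorem valuation_le_one_iff (hv : v.asIdeal = primeBelow φ A) {x : K} :
    A.valuation (φ x) ≤ 1 ↔ v.valuation K x ≤ 1 := by
  refine ⟨fun h => ?_, valuation_le_one_of hv⟩
  by_contra hcon
  rw [not_le] at hcon
  have hx0 : x ≠ 0 := by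
    rintro rfl
    simp at hcon
  have h1 : v.valuation K x⁻¹ < 1 := by
    rw [map_inv₀]
    exact inv_lt_one_of_one_lt₀ hcon
  have h2 := valuation_lt_one_of hv h1
  rw [map_inv₀, map_inv₀] at h2
  have h3 : 0 < A.valuation (φ x) :=
    zero_lt_iff.mpr ((A.valuation.ne_zero_iff).mpr ((map_ne_zero φ).mpr hx0))
  rw [inv_lt_one₀ h3] at h2
  exact absurd h (not_le.mpr h2)

theorem valuation_lt_one_iff (hv : v.asIdeal = primeBelow φ A) {x : K} :
    A.valuation (φ x) < 1 ↔ v.valuation K x < 1 := by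
  refine ⟨fun h => ?_, valuation_lt_one_of hv⟩
  by_contra hcon
  rw [not_lt] at hcon
  have hx0 : x ≠ 0 := by
    rintro rfl
    simp at hcon
  have h1 : v.valuation K x⁻¹ ≤ 1 := by
    rw [map_inv₀]
    exact inv_le_one_of_one_le₀ hcon
  have h2 := valuation_le_one_of hv h1
  rw [map_inv₀, map_inv₀] at h2
  have h3 : 0 < A.valuation (φ x) :=
    zero_lt_iff.mpr ((A.valuation.ne_zero_iff).mpr ((map_ne_zero φ).mpr hx0))
  rw [inv_le_one₀ h3] at h2
  exact absurd h (not_lt.mpr h2)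

theorem valuation_eq_one_iff (hv : v.asIdeal = primeBelow φ A) {x : K} :
    A.valuation (φ x) = 1 ↔ v.valuation K x = 1 := by
  have h1 := valuation_le_one_iff hv (x := x)
  have h2 := valuation_lt_one_iff hv (x := x)
  constructor
  · intro h
    exact le_antisymm (h1.mp h.le) (not_lt.mp (fun h3 => absurd (h2.mpr h3) (by rw [h]; simp)))
  · intro h
    exact le_antisymm (h1.mpr h.le) (not_lt.mp (fun h3 => absurd (h2.mp h3) (by rw [h]; simp)))

theorem mem_iff_valuation_le_one (hv : v.asIdeal = primeBelow φ A) {x : K} :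
    φ x ∈ A ↔ v.valuation K x ≤ 1 := by
  rw [← A.valuation_le_one_iff, valuation_le_one_iff hv]

theorem mem_nonunits_iff_valuation_lt_one (hv : v.asIdeal = primeBelow φ A) {x : K} :
    φ x ∈ A.nonunits ↔ v.valuation K x < 1 := by
  rw [ValuationSubring.mem_nonunits_iff, valuation_lt_one_iff hv]

theorem valuation_le_iff (hv : v.asIdeal = primeBelow φ A) {x y : K} :
    A.valuation (φ x) ≤ A.valuation (φ y) ↔ v.valuation K x ≤ v.valuation K y := by
  by_cases hy : y = 0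
  · subst hy
    simp
  have h3 : 0 < A.valuation (φ y) :=
    zero_lt_iff.mpr ((A.valuation.ne_zero_iff).mpr ((map_ne_zero φ).mpr hy))
  have h4 : 0 < v.valuation K y := zero_lt_iff.mpr (((v.valuation K).ne_zero_iff).mpr hy)
  have h5 := valuation_le_one_iff hv (x := x / y)
  rw [map_div₀, map_div₀, map_div₀, div_le_one₀ h3, div_le_one₀ h4] at h5
  exact h5

theorem valuation_eq_iff (hv : v.asIdeal = primeBelow φ A) {x y : K} :
    A.valuation (φ x) = A.valuation (φ y) ↔ v.valuation K x = v.valuation K y := by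
  rw [le_antisymm_iff, le_antisymm_iff, valuation_le_iff hv, valuation_le_iff hv]

theorem primeBelow_ne_bot {ℓ : ℕ} (hℓ : ℓ.Prime) (hA : A.LiesOverPrime ℓ) :
    primeBelow φ A ≠ ⊥ := by
  intro h
  have h1 := natCast_mem_primeBelow φ hA
  rw [h, Ideal.mem_bot] at h1
  exact hℓ.ne_zero (by exact_mod_cast h1)

variable (φ) in
/-- The finite place of `K` below a place of `ℚ̄` above a prime. -/
noncomputable def placeBelow {ℓ : ℕ} (hℓ : ℓ.Prime) (A : ValuationSubring Qbar)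
    (hA : A.LiesOverPrime ℓ) : HeightOneSpectrum (𝓞 K) :=
  ⟨primeBelow φ A, inferInstance, primeBelow_ne_bot hℓ hA⟩

@[simp] theorem placeBelow_asIdeal {ℓ : ℕ} (hℓ : ℓ.Prime) (hA : A.LiesOverPrime ℓ) :
    (placeBelow φ hℓ A hA).asIdeal = primeBelow φ A := rfl

variable (φ) in
/-- Every finite place of `K` lies below a place of `ℚ̄`. -/
theorem exists_place_of_heightOne (v : HeightOneSpectrum (𝓞 K)) :
    ∃ (ℓ : ℕ) (A : ValuationSubring Qbar), ℓ.Prime ∧ A.LiesOverPrime ℓ ∧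
      v.asIdeal = primeBelow φ A := by
  have hmax : (v.asIdeal.under ℤ).IsMaximal := by
    have := v.isMaximal
    exact Ideal.IsMaximal.under ℤ v.asIdeal
  obtain ⟨q, hq : _ = Ideal.span _⟩ := IsPrincipalIdealRing.principal (v.asIdeal.under ℤ)
  have hq0 : q ≠ 0 := by
    rintro rfl
    have h1 : v.asIdeal.under ℤ = ⊥ := by rw [hq]; simp
    exact v.ne_bot (Ideal.eq_bot_of_comap_eq_bot h1)
  have hqp : Prime q := by
    rw [← Ideal.span_singleton_prime hq0, ← hq]; infer_instance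
  have hmem : (q.natAbs : 𝓞 K) ∈ v.asIdeal := by
    have h1 : (q.natAbs : ℤ) ∈ v.asIdeal.under ℤ := by
      rw [hq, Ideal.mem_span_singleton]
      exact q.associated_natAbs.dvd
    have h2 : algebraMap ℤ (𝓞 K) (q.natAbs : ℤ) ∈ v.asIdeal := h1
    simpa using h2
  have := v.isPrime
  obtain ⟨A, hA, hP⟩ := exists_place φ (Int.prime_iff_natAbs_prime.mp hqp) v.asIdeal hmem
  exact ⟨q.natAbs, A, Int.prime_iff_natAbs_prime.mp hqp, hA, hP.symm⟩

end Val

section Gal

variable {K : Type*} [Field K] [NumberField K] (φ : K →+* Qbar)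

/-- Restriction of automorphisms of `ℚ̄` to a normal number field embedded by `φ`. -/
noncomputable def res [Normal ℚ K] : GQ →* (K ≃ₐ[ℚ] K) :=
  letI := φ.toAlgebra
  haveI : IsScalarTower ℚ K Qbar := IsScalarTower.of_algebraMap_eq' (Subsingleton.elim _ _)
  AlgEquiv.restrictNormalHom K

theorem res_spec [Normal ℚ K] (σ : GQ) (x : K) : φ (res φ σ x) = σ (φ x) := by
  let := φ.toAlgebra
  have : IsScalarTower ℚ K Qbar := IsScalarTower.of_algebraMap_eq' (Subsingleton.elim _ _)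
  exact AlgEquiv.restrictNormal_commutes σ K x

theorem res_surjective [Normal ℚ K] : Function.Surjective (res φ) := by
  let := φ.toAlgebra
  have : IsScalarTower ℚ K Qbar := IsScalarTower.of_algebraMap_eq' (Subsingleton.elim _ _)
  exact AlgEquiv.restrictNormalHom_surjective Qbar

theorem res_eq_iff [Normal ℚ K] {σ : GQ} {τ : K ≃ₐ[ℚ] K} :
    res φ σ = τ ↔ ∀ x, σ (φ x) = φ (τ x) := by
  constructor
  · rintro rfl x
    exact (res_spec φ σ x).symm
  · intro h
    ext x
    apply φ.injective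
    rw [res_spec, h]

theorem res_eq_one_iff [Normal ℚ K] {σ : GQ} : res φ σ = 1 ↔ σ ∈ fixer φ := by
  rw [res_eq_iff]; rfl

variable {φ} {A : ValuationSubring Qbar} {ℓ : ℕ}

omit [NumberField K] in
theorem card_quot_under (hℓ : ℓ.Prime) (hA : A.LiesOverPrime ℓ) :
    Nat.card (ℤ ⧸ (primeBelow φ A).under ℤ) = ℓ := by
  rw [under_int_eq_span hℓ _ (natCast_mem_primeBelow φ hA)]
  rw [Nat.card_congr (Int.quotientSpanEquivZMod (ℓ : ℤ)).toEquiv, Int.natAbs_natCast,
    Nat.card_zmod]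

/-! ### Lifting, in Mathlib's language -/

theorem exists_lift_of_mem_stabilizer (hℓ : ℓ.Prime) (hA : A.LiesOverPrime ℓ) {τ : K ≃ₐ[ℚ] K}
    (hτ : τ ∈ MulAction.stabilizer (K ≃ₐ[ℚ] K) (primeBelow φ A)) :
    ∃ σ ∈ A.decompositionSubgroup ℚ, ∀ x, σ (φ x) = φ (τ x) := by
  refine exists_lift_decomposition hℓ hA (τ : K ≃+* K) (fun c => ?_)
  have h1 : τ • primeBelow φ A = primeBelow φ A := hτ
  conv_rhs => rw [← h1]
  exact (Ideal.smul_mem_pointwise_smul_iff (a := τ)).symm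

theorem exists_lift_of_mem_inertia (hℓ : ℓ.Prime) (hA : A.LiesOverPrime ℓ) {τ : K ≃ₐ[ℚ] K}
    (hτ : τ ∈ (primeBelow φ A).inertia (K ≃ₐ[ℚ] K)) :
    ∃ σ ∈ A.inertiaSubgroupIn ℚ, ∀ x, σ (φ x) = φ (τ x) :=
  exists_lift_inertia hℓ hA (τ : K ≃+* K) hτ

theorem exists_lift_of_isArithFrobAt (hℓ : ℓ.Prime) (hA : A.LiesOverPrime ℓ) {τ : K ≃ₐ[ℚ] K}
    (hτ : IsArithFrobAt ℤ τ (primeBelow φ A)) :
    ∃ σ : GQ, A.IsFrobeniusAt σ ℓ ∧ ∀ x, σ (φ x) = φ (τ x) := by
  refine exists_lift_frobenius hℓ hA (τ : K ≃+* K) (fun c => ?_)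
  have := hτ c
  rw [card_quot_under hℓ hA] at this
  exact this

/-! ### Restriction, in Mathlib's language -/

theorem res_mem_stabilizer [Normal ℚ K] {σ : GQ} (hσ : σ ∈ A.decompositionSubgroup ℚ) :
    res φ σ ∈ MulAction.stabilizer (K ≃ₐ[ℚ] K) (primeBelow φ A) := by
  rw [MulAction.mem_stabilizer_iff]
  ext c
  rw [Ideal.mem_pointwise_smul_iff_inv_smul_mem]
  have h := mem_primeBelow_iff_of_mem_decomposition (φ := φ) (τ := (res φ σ : K ≃+* K))
    (fun x => (res_spec φ σ x).symm) hσ ((res φ σ)⁻¹ • c)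
  rw [h]
  have h2 : NumberField.RingOfIntegers.mapRingEquiv (res φ σ : K ≃+* K) ((res φ σ)⁻¹ • c) = c :=
    smul_inv_smul (res φ σ) c
  rw [h2]

theorem res_mem_inertia [Normal ℚ K] {σ : GQ} (hσ : σ ∈ A.inertiaSubgroupIn ℚ) :
    res φ σ ∈ (primeBelow φ A).inertia (K ≃ₐ[ℚ] K) :=
  fun c => sub_mem_primeBelow_of_mem_inertia (φ := φ) (τ := (res φ σ : K ≃+* K))
    (fun x => (res_spec φ σ x).symm) hσ c

theorem res_isArithFrobAt [Normal ℚ K] (hℓ : ℓ.Prime) (hA : A.LiesOverPrime ℓ) {σ : GQ}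
    (hσ : A.IsFrobeniusAt σ ℓ) : IsArithFrobAt ℤ (res φ σ) (primeBelow φ A) := by
  intro c
  rw [card_quot_under hℓ hA]
  exact sub_pow_mem_primeBelow_of_isFrobeniusAt (φ := φ) (τ := (res φ σ : K ≃+* K))
    (fun x => (res_spec φ σ x).symm) hσ c

/-- The image of the inertia group of `A` in `Gal(K/ℚ)` is the inertia group of the prime
below. -/
theorem map_res_inertia [Normal ℚ K] (hℓ : ℓ.Prime) (hA : A.LiesOverPrime ℓ) :
    (A.inertiaSubgroupIn ℚ).map (res φ) = (primeBelow φ A).inertia (K ≃ₐ[ℚ] K) := by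
  ext τ
  constructor
  · rintro ⟨σ, hσ, rfl⟩
    exact res_mem_inertia hσ
  · intro hτ
    obtain ⟨σ, hσ, h⟩ := exists_lift_of_mem_inertia hℓ hA hτ
    exact ⟨σ, hσ, (res_eq_iff φ).mpr h⟩

theorem map_res_decomposition [Normal ℚ K] (hℓ : ℓ.Prime) (hA : A.LiesOverPrime ℓ) :
    (A.decompositionSubgroup ℚ).map (res φ) =
      MulAction.stabilizer (K ≃ₐ[ℚ] K) (primeBelow φ A) := by
  ext τ
  constructor
  · rintro ⟨σ, hσ, rfl⟩
    exact res_mem_stabilizer hσ
  · intro hτ
    obtain ⟨σ, hσ, h⟩ := exists_lift_of_mem_stabilizer hℓ hA hτ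
    exact ⟨σ, hσ, (res_eq_iff φ).mpr h⟩

/-! ### T5: ramification -/

omit [NumberField K] in
theorem liesOver_span (hℓ : ℓ.Prime) (hA : A.LiesOverPrime ℓ) :
    (primeBelow φ A).LiesOver (Ideal.span {(ℓ : ℤ)}) :=
  ⟨(under_int_eq_span hℓ _ (natCast_mem_primeBelow φ hA)).symm⟩

/-- The ramification index of the prime below `A` is the order of its inertia group. -/
theorem card_inertia_eq_ramificationIdx [IsGalois ℚ K] :
    Nat.card ((primeBelow φ A).inertia (K ≃ₐ[ℚ] K)) = (primeBelow φ A).ramificationIdx ℤ := by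
  rw [Ideal.card_inertia_eq_ramificationIdxIn ((primeBelow φ A).under ℤ) (primeBelow φ A),
    Ideal.ramificationIdxIn_eq_ramificationIdx _ (primeBelow φ A) (K ≃ₐ[ℚ] K)]

/-- `K/ℚ` Galois: the prime below `A` is unramified iff the inertia group of `A` fixes `φ K`. -/
theorem isUnramifiedAt_iff [IsGalois ℚ K] (hℓ : ℓ.Prime) (hA : A.LiesOverPrime ℓ) :
    Algebra.IsUnramifiedAt ℤ (primeBelow φ A) ↔
      ∀ σ ∈ A.inertiaSubgroupIn ℚ, ∀ x : K, σ (φ x) = φ x := by
  rw [← Ideal.ramificationIdx_eq_one_iff, ← card_inertia_eq_ramificationIdx,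
    Subgroup.card_eq_one, ← map_res_inertia hℓ hA, eq_bot_iff, Subgroup.map_le_iff_le_comap]
  constructor
  · intro h σ hσ
    have h1 : res φ σ = 1 := h hσ
    exact (res_eq_one_iff φ).mp h1
  · intro h σ hσ
    show res φ σ = 1
    exact (res_eq_one_iff φ).mpr (h σ hσ)

theorem natCast_notMem_sq_of_isUnramifiedAt (hℓ : ℓ.Prime) (hA : A.LiesOverPrime ℓ)
    (h : Algebra.IsUnramifiedAt ℤ (primeBelow φ A)) : (ℓ : 𝓞 K) ∉ primeBelow φ A ^ 2 := by
  intro hmem
  have := liesOver_span (φ := φ) hℓ hA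
  have hp0 : Ideal.span {(ℓ : ℤ)} ≠ ⊥ := by
    simp [hℓ.ne_zero]
  have h1 := Ideal.ramificationIdx'_eq_ramificationIdx (Ideal.span {(ℓ : ℤ)}) (primeBelow φ A) hp0
  rw [Ideal.ramificationIdx_eq_one_iff.mpr h] at h1
  have hle : (Ideal.span {(ℓ : ℤ)}).map (algebraMap ℤ (𝓞 K)) ≤ primeBelow φ A := by
    rw [Ideal.map_span, Set.image_singleton, Ideal.span_le, Set.singleton_subset_iff]
    simpa using natCast_mem_primeBelow φ hA
  have h2 := (Ideal.ramificationIdx'_ne_one_iff hle).not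
  rw [not_not] at h2
  apply h2.mp h1
  rw [Ideal.map_span, Set.image_singleton, Ideal.span_le, Set.singleton_subset_iff]
  simpa using hmem

theorem valuation_natCast_of_isUnramifiedAt (hℓ : ℓ.Prime) (hA : A.LiesOverPrime ℓ)
    (h : Algebra.IsUnramifiedAt ℤ (primeBelow φ A)) {v : HeightOneSpectrum (𝓞 K)}
    (hv : v.asIdeal = primeBelow φ A) : v.valuation K (ℓ : K) = WithZero.exp (-1 : ℤ) := by
  have h1 : v.valuation K (ℓ : K) = v.intValuation (ℓ : 𝓞 K) := by
    rw [← v.valuation_of_algebraMap (K := K)]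
    simp
  rw [h1]
  have h2 : v.intValuation (ℓ : 𝓞 K) ≤ WithZero.exp (-((1 : ℕ) : ℤ)) := by
    rw [v.intValuation_le_pow_iff_mem, pow_one, hv]
    exact natCast_mem_primeBelow φ hA
  have h3 : ¬ v.intValuation (ℓ : 𝓞 K) ≤ WithZero.exp (-((2 : ℕ) : ℤ)) := by
    rw [v.intValuation_le_pow_iff_mem, hv]
    exact natCast_notMem_sq_of_isUnramifiedAt hℓ hA h
  have h0 : v.intValuation (ℓ : 𝓞 K) ≠ 0 :=
    v.intValuation_ne_zero _ (by exact_mod_cast hℓ.ne_zero)
  obtain ⟨n, hn⟩ : ∃ n : ℤ, v.intValuation (ℓ : 𝓞 K) = WithZero.exp n :=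
    ⟨WithZero.log _, (WithZero.exp_log h0).symm⟩
  rw [hn] at h2 h3 ⊢
  rw [WithZero.exp_le_exp] at h2 h3
  congr 1
  push_cast at h2 h3
  omega

/-- In an unramified situation every nonzero element of `φ K` has the valuation of a power
of `ℓ`. -/
theorem exists_zpow_of_isUnramifiedAt (hℓ : ℓ.Prime) (hA : A.LiesOverPrime ℓ)
    (h : Algebra.IsUnramifiedAt ℤ (primeBelow φ A)) {x : K} (hx : x ≠ 0) :
    ∃ n : ℤ, A.valuation (φ x) = A.valuation (ℓ : Qbar) ^ n := by
  set v := placeBelow φ hℓ A hA with hvdef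
  have hv : v.asIdeal = primeBelow φ A := rfl
  have h0 : v.valuation K x ≠ 0 := ((v.valuation K).ne_zero_iff).mpr hx
  refine ⟨- WithZero.log (v.valuation K x), ?_⟩
  have h1 : v.valuation K x = v.valuation K ((ℓ : K) ^ (- WithZero.log (v.valuation K x))) := by
    rw [map_zpow₀, valuation_natCast_of_isUnramifiedAt hℓ hA h hv, ← WithZero.exp_zsmul]
    simp [WithZero.exp_log h0]
  have h2 := (valuation_eq_iff hv).mpr h1
  rw [h2, map_zpow₀, map_zpow₀, map_natCast]

/-- **T5**, Prelude language: if the inertia group of `A` fixes the Galois number field `φ K`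
pointwise then every nonzero element of `φ K` has the valuation of a power of `ℓ`. -/
theorem exists_zpow_of_inertia_fixes [IsGalois ℚ K] (hℓ : ℓ.Prime) (hA : A.LiesOverPrime ℓ)
    (h : ∀ σ ∈ A.inertiaSubgroupIn ℚ, ∀ x : K, σ (φ x) = φ x) {x : K} (hx : x ≠ 0) :
    ∃ n : ℤ, A.valuation (φ x) = A.valuation (ℓ : Qbar) ^ n :=
  exists_zpow_of_isUnramifiedAt hℓ hA ((isUnramifiedAt_iff hℓ hA).mpr h) hx

end Gal

end Fermat.Agent.Bridge
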