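import Mathlib
import Fermat.Agent.Common.PlaceBridgeVal

set_option autoImplicit false

/-!
# Bridge, part 3: completely split places and density
-/

namespace Fermat.Agent.Bridge

open scoped Pointwise NumberField
open Fermat.Agent.S54 Fermat.Agent.S13 IsDedekindDomain

local notation "Qbar" => AlgebraicClosure ℚ
local notation "GQ" => (AlgebraicClosure ℚ ≃ₐ[ℚ] AlgebraicClosure ℚ)
local notation "Zbar" => integralClosure ℤ (AlgebraicClosure ℚ)

/-- Abstract density lemma: an "unramified, residually trivial" extension of valued fields is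
dense. -/
theorem dense_of_unramified {F Γ : Type*} [Field F] [LinearOrderedCommGroupWithZero Γ]
    (val : Valuation F Γ) (K₀ M₀ : Subfield F) (hKM : K₀ ≤ M₀) (ϖ : F) (hϖK : ϖ ∈ K₀)
    (hϖ0 : ϖ ≠ 0) (hϖ1 : val ϖ ≤ 1)
    (h1 : ∀ y ∈ M₀, val y < 1 → val y ≤ val ϖ)
    (h2 : ∀ y ∈ M₀, y ≠ 0 → ∃ m : ℤ, val y = val ϖ ^ m)
    (h3 : ∀ z ∈ M₀, val z ≤ 1 → ∃ c ∈ K₀, val (z - c) < 1)
    {y : F} (hy : y ∈ M₀) (hy0 : y ≠ 0) (n : ℕ) :
    ∃ c ∈ K₀, c ≠ 0 ∧ val (y / c) = 1 ∧ val (y / c - 1) ≤ val ϖ ^ n := by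
  have hvϖ : val ϖ ≠ 0 := (val.ne_zero_iff).mpr hϖ0
  induction n with
  | zero =>
    obtain ⟨m, hm⟩ := h2 y hy hy0
    refine ⟨ϖ ^ m, K₀.zpow_mem hϖK m, zpow_ne_zero _ hϖ0, ?_, ?_⟩
    · rw [map_div₀, map_zpow₀, hm, div_self (zpow_ne_zero _ hvϖ)]
    · rw [pow_zero]
      refine (val.map_sub _ _).trans (max_le ?_ (by rw [map_one]))
      rw [map_div₀, map_zpow₀, hm, div_self (zpow_ne_zero _ hvϖ)]
  | succ n ih =>
    obtain ⟨c, hcK, hc0, hu, hle⟩ := ih
    set z : F := (y / c - 1) / ϖ ^ n with hz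
    have hzM : z ∈ M₀ :=
      M₀.div_mem (M₀.sub_mem (M₀.div_mem hy (hKM hcK)) M₀.one_mem) (M₀.pow_mem (hKM hϖK) n)
    have hz1 : val z ≤ 1 := by
      rw [hz, map_div₀, map_pow]
      exact div_le_one_of_le₀ hle zero_le
    obtain ⟨c', hc'K, hc'⟩ := h3 z hzM hz1
    have hle' : val (z - c') ≤ val ϖ := h1 _ (M₀.sub_mem hzM (hKM hc'K)) hc'
    set d : F := 1 + c' * ϖ ^ n with hd
    have hdK : d ∈ K₀ := K₀.add_mem K₀.one_mem (K₀.mul_mem hc'K (K₀.pow_mem hϖK n))
    have hkey : y / c - d = ϖ ^ n * (z - c') := by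
      rw [hz, hd]
      field_simp
      ring
    have hkey_le : val (y / c - d) ≤ val ϖ ^ (n + 1) := by
      rw [hkey, map_mul, map_pow, pow_succ]
      exact mul_le_mul_right hle' _
    have hkey_lt : val (y / c - d) < 1 := by
      rw [hkey, map_mul, map_pow]
      calc val ϖ ^ n * val (z - c') ≤ 1 * val (z - c') :=
            mul_le_mul_left (pow_le_one₀ zero_le hϖ1) _
        _ < 1 := by rw [one_mul]; exact hc'
    have hd1 : val d = 1 := by
      have h5 : d = y / c - (y / c - d) := by ring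
      rw [h5, val.map_sub_eq_of_lt_left (by rw [hu]; exact hkey_lt), hu]
    have hd0 : d ≠ 0 := by
      intro h
      rw [h, map_zero] at hd1
      exact zero_ne_one hd1
    refine ⟨c * d, K₀.mul_mem hcK hdK, mul_ne_zero hc0 hd0, ?_, ?_⟩
    · rw [← div_div, map_div₀, hu, hd1, div_one]
    · have h6 : y / (c * d) - 1 = (y / c - d) / d := by
        field_simp
      rw [h6, map_div₀, hd1, div_one]
      exact hkey_le

theorem lt_one_iff_le_exp_neg_one (x : WithZero (Multiplicative ℤ)) :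
    x < 1 ↔ x ≤ WithZero.exp (-1 : ℤ) := by
  have h := WithZero.lt_mul_exp_iff_le (x := x) (y := WithZero.exp (-1 : ℤ)) WithZero.exp_ne_zero
  rw [← WithZero.exp_add] at h
  simpa using h

/-- The valuation of an element of `P \ P²`. -/
theorem valuation_eq_exp_neg_one {R F : Type*} [CommRing R] [IsDedekindDomain R] [Field F]
    [Algebra R F] [IsFractionRing R F] (w : HeightOneSpectrum R) {π : R} (h1 : π ∈ w.asIdeal)
    (h2 : π ∉ w.asIdeal ^ 2) : w.valuation F (algebraMap R F π) = WithZero.exp (-1 : ℤ) := by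
  rw [w.valuation_of_algebraMap]
  have h2' : w.intValuation π ≤ WithZero.exp (-((1 : ℕ) : ℤ)) := by
    rw [w.intValuation_le_pow_iff_mem, pow_one]
    exact h1
  have h3 : ¬ w.intValuation π ≤ WithZero.exp (-((2 : ℕ) : ℤ)) := by
    rw [w.intValuation_le_pow_iff_mem]
    exact h2
  have h0 : w.intValuation π ≠ 0 := by
    intro h
    rw [h] at h3
    exact h3 zero_le
  obtain ⟨n, hn⟩ : ∃ n : ℤ, w.intValuation π = WithZero.exp n :=
    ⟨WithZero.log _, (WithZero.exp_log h0).symm⟩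
  rw [hn] at h2' h3 ⊢
  rw [WithZero.exp_le_exp] at h2' h3
  congr 1
  push_cast at h2' h3
  omega

section Split

variable {K M : Type*} [Field K] [NumberField K] [Field M] [NumberField M] [Algebra K M]
  {φ : K →+* Qbar} {ψ : M →+* Qbar} {A : ValuationSubring Qbar} {ℓ : ℕ}

omit [NumberField K] [NumberField M] in
theorem primeBelow_under (hι : ∀ x : K, ψ (algebraMap K M x) = φ x) :
    (primeBelow ψ A).under (𝓞 K) = primeBelow φ A := by
  ext c
  rw [Ideal.under_def, Ideal.mem_comap, mem_primeBelow_iff, mem_primeBelow_iff, ← hι]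
  rfl

omit [NumberField K] [NumberField M] in
/-- If every element of the decomposition group of `A` fixing `φ K` fixes `ψ M`, the
decomposition group of the prime below `A` in `Gal(M/K)` is trivial. -/
theorem stabilizer_eq_bot (hℓ : ℓ.Prime) (hA : A.LiesOverPrime ℓ)
    (hι : ∀ x : K, ψ (algebraMap K M x) = φ x)
    (hD : ∀ σ ∈ A.decompositionSubgroup ℚ, (∀ x : K, σ (φ x) = φ x) → ∀ y : M, σ (ψ y) = ψ y) :
    MulAction.stabilizer (M ≃ₐ[K] M) (primeBelow ψ A) = ⊥ := by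
  rw [eq_bot_iff]
  intro τ hτ
  have h1 : τ • primeBelow ψ A = primeBelow ψ A := hτ
  obtain ⟨σ, hσ, h⟩ := exists_lift_decomposition (φ := ψ) hℓ hA (τ : M ≃+* M) (fun c => by
    conv_rhs => rw [← h1]
    exact (Ideal.smul_mem_pointwise_smul_iff (a := τ)).symm)
  have h2 := hD σ hσ (fun x => by
    rw [← hι, h]
    congr 1
    exact τ.commutes x)
  rw [Subgroup.mem_bot]
  ext y
  apply ψ.injective
  have := h y
  rw [h2] at this
  exact this.symm

theorem ramificationIdx_inertiaDeg_eq_one [IsGalois K M] (hℓ : ℓ.Prime) (hA : A.LiesOverPrime ℓ)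
    (hι : ∀ x : K, ψ (algebraMap K M x) = φ x)
    (hD : ∀ σ ∈ A.decompositionSubgroup ℚ, (∀ x : K, σ (φ x) = φ x) → ∀ y : M, σ (ψ y) = ψ y) :
    (primeBelow ψ A).ramificationIdx (𝓞 K) = 1 ∧ (primeBelow ψ A).inertiaDeg (𝓞 K) = 1 := by
  have h1 := Ideal.card_stabilizer_eq (G := M ≃ₐ[K] M) ((primeBelow ψ A).under (𝓞 K))
    (primeBelow ψ A)
  rw [stabilizer_eq_bot hℓ hA hι hD, Subgroup.card_bot,
    Ideal.ramificationIdxIn_eq_ramificationIdx _ (primeBelow ψ A) (M ≃ₐ[K] M),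
    Ideal.inertiaDegIn_eq_inertiaDeg _ (primeBelow ψ A) (M ≃ₐ[K] M)] at h1
  exact mul_eq_one.mp h1.symm

theorem exists_uniformizer_of_ramificationIdx (hℓ : ℓ.Prime) (hA : A.LiesOverPrime ℓ)
    (hι : ∀ x : K, ψ (algebraMap K M x) = φ x)
    (he : (primeBelow ψ A).ramificationIdx (𝓞 K) = 1) :
    ∃ π : 𝓞 K, π ∈ primeBelow φ A ∧ algebraMap (𝓞 K) (𝓞 M) π ∉ primeBelow ψ A ^ 2 := by
  have hlo : (primeBelow ψ A).LiesOver (primeBelow φ A) := ⟨(primeBelow_under hι).symm⟩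
  have h1 := Ideal.ramificationIdx'_eq_ramificationIdx (primeBelow φ A) (primeBelow ψ A)
    (primeBelow_ne_bot hℓ hA)
  rw [he] at h1
  have hle : (primeBelow φ A).map (algebraMap (𝓞 K) (𝓞 M)) ≤ primeBelow ψ A := by
    rw [Ideal.map_le_iff_le_comap]
    exact (primeBelow_under hι).ge
  have h2 := (Ideal.ramificationIdx'_ne_one_iff hle).not
  rw [not_not] at h2
  have h3 := h2.mp h1
  rw [Ideal.map_le_iff_le_comap] at h3
  obtain ⟨π, hπ, hπ'⟩ := SetLike.not_le_iff_exists.mp h3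
  exact ⟨π, hπ, hπ'⟩

theorem exists_sub_mem_of_inertiaDeg (hℓ : ℓ.Prime) (hA : A.LiesOverPrime ℓ)
    (hι : ∀ x : K, ψ (algebraMap K M x) = φ x)
    (hf : (primeBelow ψ A).inertiaDeg (𝓞 K) = 1) (y : 𝓞 M) :
    ∃ c : 𝓞 K, y - algebraMap (𝓞 K) (𝓞 M) c ∈ primeBelow ψ A := by
  have hlo : (primeBelow ψ A).LiesOver (primeBelow φ A) := ⟨(primeBelow_under hι).symm⟩
  have hm1 : (primeBelow φ A).IsMaximal :=
    Ring.DimensionLEOne.maximalOfPrime (primeBelow_ne_bot hℓ hA) inferInstance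
  have hm2 : (primeBelow ψ A).IsMaximal :=
    Ring.DimensionLEOne.maximalOfPrime (primeBelow_ne_bot hℓ hA) inferInstance
  rw [Ideal.inertiaDeg_eq_of_isMaximal (primeBelow φ A) (primeBelow ψ A)] at hf
  let : Field (𝓞 K ⧸ primeBelow φ A) := Ideal.Quotient.field _
  let : Field (𝓞 M ⧸ primeBelow ψ A) := Ideal.Quotient.field _
  have h1 := (Algebra.finrank_eq_one_iff_bijective_algebraMap).mp hf
  obtain ⟨c, hc⟩ := h1.2 (Ideal.Quotient.mk _ y)
  obtain ⟨c, rfl⟩ := Ideal.Quotient.mk_surjective c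
  refine ⟨c, ?_⟩
  rw [← Ideal.Quotient.eq]
  exact hc.symm

/-- Density of `K` in `M` at a place with `e = f = 1`. -/
theorem exists_close_of_ef (hℓ : ℓ.Prime) (hA : A.LiesOverPrime ℓ)
    (hι : ∀ x : K, ψ (algebraMap K M x) = φ x)
    (he : (primeBelow ψ A).ramificationIdx (𝓞 K) = 1)
    (hf : (primeBelow ψ A).inertiaDeg (𝓞 K) = 1)
    {w : HeightOneSpectrum (𝓞 M)} (hw : w.asIdeal = primeBelow ψ A)
    {y : M} (hy : y ≠ 0) (n : ℕ) :
    ∃ c : K, c ≠ 0 ∧ w.valuation M (y / algebraMap K M c) = 1 ∧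
      w.valuation M (y / algebraMap K M c - 1) ≤ WithZero.exp (-(n : ℤ)) := by
  obtain ⟨π, hπ, hπ2⟩ := exists_uniformizer_of_ramificationIdx hℓ hA hι he
  have hπ1 : algebraMap (𝓞 K) (𝓞 M) π ∈ w.asIdeal := by
    rw [hw, ← Ideal.mem_comap]
    have := primeBelow_under (φ := φ) (ψ := ψ) (A := A) hι
    rw [Ideal.under_def] at this
    rw [this]
    exact hπ
  rw [← hw] at hπ2
  have hval := valuation_eq_exp_neg_one (F := M) w hπ1 hπ2
  have hcomm : algebraMap (𝓞 M) M (algebraMap (𝓞 K) (𝓞 M) π) = algebraMap K M (π : K) := rfl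
  rw [hcomm] at hval
  have hϖ0 : algebraMap K M (π : K) ≠ 0 := by
    intro h
    rw [h, map_zero] at hval
    exact WithZero.exp_ne_zero hval.symm
  obtain ⟨c, ⟨c, rfl⟩, hc0, h1, h2⟩ := dense_of_unramified (w.valuation M)
    (algebraMap K M).fieldRange ⊤ le_top (algebraMap K M (π : K)) ⟨_, rfl⟩ hϖ0
    (by rw [hval, ← WithZero.exp_zero, WithZero.exp_le_exp]; omega)
    (fun y _ hy => by rw [hval]; exact (lt_one_iff_le_exp_neg_one _).mp hy)
    (fun y _ hy => by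
      have h0 : w.valuation M y ≠ 0 := ((w.valuation M).ne_zero_iff).mpr hy
      refine ⟨- WithZero.log (w.valuation M y), ?_⟩
      rw [hval, ← WithZero.exp_zsmul]
      simp [WithZero.exp_log h0])
    (fun z _ hz => by
      obtain ⟨a, ha⟩ := w.exists_valuation_sub_lt_of_integer (K := M) hz 1
      obtain ⟨c, hc⟩ := exists_sub_mem_of_inertiaDeg hℓ hA hι hf a
      refine ⟨algebraMap K M (c : K), ⟨_, rfl⟩, ?_⟩
      have h3 : w.valuation M (algebraMap (𝓞 M) M (a - algebraMap (𝓞 K) (𝓞 M) c)) < 1 := by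
        rw [w.valuation_lt_one_iff_mem, hw]
        exact hc
      have h4 : z - algebraMap K M (c : K) =
          algebraMap (𝓞 M) M (a - algebraMap (𝓞 K) (𝓞 M) c) - (algebraMap (𝓞 M) M a - z) := by
        rw [map_sub]
        have : algebraMap (𝓞 M) M (algebraMap (𝓞 K) (𝓞 M) c) = algebraMap K M (c : K) := rfl
        rw [this]
        ring
      rw [h4]
      exact lt_of_le_of_lt (Valuation.map_sub _ _ _) (max_lt h3 (by simpa using ha)))
    (y := y) trivial hy n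
  refine ⟨c, fun h => hc0 (by rw [h, map_zero]), h1, ?_⟩
  rw [hval, ← WithZero.exp_nsmul] at h2
  simpa using h2

/-- If `α ∈ K` becomes a `p`-th power in `M` and the place of `M` below `A` has `e = f = 1` over
`K`, then `α` is arbitrarily close to a `p`-th power of `K` at the place of `K` below `A`. -/
theorem exists_pow_close_of_ef (hℓ : ℓ.Prime) (hA : A.LiesOverPrime ℓ)
    (hι : ∀ x : K, ψ (algebraMap K M x) = φ x)
    (he : (primeBelow ψ A).ramificationIdx (𝓞 K) = 1)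
    (hf : (primeBelow ψ A).inertiaDeg (𝓞 K) = 1)
    {v : HeightOneSpectrum (𝓞 K)} (hv : v.asIdeal = primeBelow φ A)
    (p : ℕ) {α : K} {u : M} (hu : u ≠ 0) (hα : algebraMap K M α = u ^ p) (n : ℕ) :
    ∃ c : K, c ≠ 0 ∧ v.valuation K (α / c ^ p - 1) ≤ WithZero.exp (-(n : ℤ)) := by
  set w := placeBelow ψ hℓ A hA with hwdef
  have hw : w.asIdeal = primeBelow ψ A := rfl
  obtain ⟨c, hc0, h1, h2⟩ := exists_close_of_ef hℓ hA hι he hf hw hu n
  refine ⟨c, hc0, ?_⟩
  obtain ⟨π, hπ, hπ2⟩ := exists_uniformizer_of_ramificationIdx hℓ hA hι he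
  have hπ1 : algebraMap (𝓞 K) (𝓞 M) π ∈ w.asIdeal := by
    rw [hw, ← Ideal.mem_comap]
    have := primeBelow_under (φ := φ) (ψ := ψ) (A := A) hι
    rw [Ideal.under_def] at this
    rw [this]
    exact hπ
  rw [← hw] at hπ2
  have hval := valuation_eq_exp_neg_one (F := M) w hπ1 hπ2
  have hcomm : algebraMap (𝓞 M) M (algebraMap (𝓞 K) (𝓞 M) π) = algebraMap K M (π : K) := rfl
  rw [hcomm] at hval
  -- the estimate in `M`
  set x : M := u / algebraMap K M c with hx
  have h3 : algebraMap K M (α / c ^ p - 1) = (x - 1) * ∑ i ∈ Finset.range p, x ^ i := by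
    rw [← mul_comm, geom_sum_mul, map_sub, map_div₀, map_pow, hα, map_one, hx, div_pow]
  have h4 : w.valuation M (∑ i ∈ Finset.range p, x ^ i) ≤ 1 := by
    refine Valuation.map_sum_le _ (fun i _ => ?_)
    rw [map_pow, h1, one_pow]
  have h5 : w.valuation M (algebraMap K M (α / c ^ p - 1)) ≤
      w.valuation M (algebraMap K M ((π : K) ^ n)) := by
    rw [h3, map_mul, map_pow, map_pow, hval, ← WithZero.exp_nsmul]
    calc _ ≤ w.valuation M (x - 1) * 1 := mul_le_mul_right h4 _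
      _ ≤ _ := by rw [mul_one]; simpa using h2
  rw [← valuation_le_iff hw, hι, hι, valuation_le_iff hv] at h5
  refine h5.trans ?_
  have h6 : v.valuation K (π : K) ≤ WithZero.exp (-1 : ℤ) := by
    rw [← lt_one_iff_le_exp_neg_one]
    exact (v.valuation_lt_one_iff_mem π).mpr (hv ▸ hπ)
  rw [map_pow]
  calc _ ≤ WithZero.exp (-1 : ℤ) ^ n := pow_le_pow_left₀ zero_le h6 n
    _ = _ := by rw [← WithZero.exp_nsmul]; simp

/-- **Split places**, Prelude language. -/
theorem exists_pow_close_of_decomposition [IsGalois K M] (hℓ : ℓ.Prime) (hA : A.LiesOverPrime ℓ)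
    (hι : ∀ x : K, ψ (algebraMap K M x) = φ x)
    (hD : ∀ σ ∈ A.decompositionSubgroup ℚ, (∀ x : K, σ (φ x) = φ x) → ∀ y : M, σ (ψ y) = ψ y)
    {v : HeightOneSpectrum (𝓞 K)} (hv : v.asIdeal = primeBelow φ A)
    (p : ℕ) {α : K} {u : M} (hu : u ≠ 0) (hα : algebraMap K M α = u ^ p) (n : ℕ) :
    ∃ c : K, c ≠ 0 ∧ v.valuation K (α / c ^ p - 1) ≤ WithZero.exp (-(n : ℤ)) :=
  exists_pow_close_of_ef hℓ hA hι (ramificationIdx_inertiaDeg_eq_one hℓ hA hι hD).1
    (ramificationIdx_inertiaDeg_eq_one hℓ hA hι hD).2 hv p hu hα n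

end Split

end Fermat.Agent.Bridge
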