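import Mathlib
import Fermat.Agent.Common.PlaceBridgeSplit

set_option autoImplicit false

/-!
# Bridge, part 4: the henselian local field `ℚ̄^(D_A ∩ G_K)`

* `valuation_apply_of_mem_decomposition` : `D_A` preserves the valuation of `A`;
* `exists_root_fixed` : Hensel's lemma for `p`-th roots ("the root closest to `1` is fixed");
* `exists_close_of_fixed` : `K` is dense in its henselisation at `A`;
* `exists_root_fixed_iff` : local `p`-th powers.
-/

namespace Fermat.Agent.Bridge

open scoped Pointwise NumberField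
open Fermat.Agent.S54 Fermat.Agent.S13 IsDedekindDomain

local notation "Qbar" => AlgebraicClosure ℚ
local notation "GQ" => (AlgebraicClosure ℚ ≃ₐ[ℚ] AlgebraicClosure ℚ)
local notation "Zbar" => integralClosure ℤ (AlgebraicClosure ℚ)

section Invariance

variable {A : ValuationSubring Qbar} {σ : GQ}

theorem valuation_lt_of_mem_decomposition (hσ : σ ∈ A.decompositionSubgroup ℚ) {a b : Qbar}
    (h : A.valuation a < A.valuation b) : A.valuation (σ a) < A.valuation (σ b) := by
  have hb0 : b ≠ 0 := by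
    rintro rfl
    rw [map_zero] at h
    exact not_lt_zero h
  have hvb : 0 < A.valuation b := zero_lt_iff.2 ((A.valuation.ne_zero_iff).2 hb0)
  have hσb0 : σ b ≠ 0 := fun h' => hb0 (by simpa using h')
  have hvσb : 0 < A.valuation (σ b) := zero_lt_iff.2 ((A.valuation.ne_zero_iff).2 hσb0)
  have h1 : a / b ∈ A.nonunits := by
    rw [ValuationSubring.mem_nonunits_iff, map_div₀]
    exact (div_lt_one₀ hvb).2 h
  have h2 := smul_mem_nonunits_of_mem_decomposition hσ h1
  rw [ValuationSubring.mem_nonunits_iff, map_div₀, map_div₀] at h2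
  exact (div_lt_one₀ hvσb).1 h2

theorem exists_pow_apply_eq (σ : GQ) (x : Qbar) : ∃ n : ℕ, 0 < n ∧ (σ ^ n) x = x := by
  have hx : IsIntegral ℚ x := Algebra.IsIntegral.isIntegral x
  have hfin : ((minpoly ℚ x).rootSet Qbar).Finite := Polynomial.rootSet_finite _ _
  have hmem : ∀ k : ℕ, (σ ^ k) x ∈ (minpoly ℚ x).rootSet Qbar := by
    intro k
    rw [Polynomial.mem_rootSet]
    refine ⟨minpoly.ne_zero hx, ?_⟩
    have := Polynomial.aeval_algHom_apply ((σ ^ k : GQ) : Qbar →ₐ[ℚ] Qbar) x (minpoly ℚ x)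
    rw [minpoly.aeval, map_zero] at this
    exact this
  obtain ⟨a, b, hab, heq⟩ := hfin.exists_lt_map_eq_of_forall_mem hmem
  refine ⟨b - a, by omega, ?_⟩
  have h1 : (σ ^ b) x = (σ ^ a) ((σ ^ (b - a)) x) := by
    rw [← AlgEquiv.mul_apply, ← pow_add]
    congr 2
    omega
  rw [h1] at heq
  exact ((σ ^ a).injective heq).symm

/-- **H0**: elements of the decomposition group preserve the valuation. -/
theorem valuation_apply_of_mem_decomposition (hσ : σ ∈ A.decompositionSubgroup ℚ) (x : Qbar) :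
    A.valuation (σ x) = A.valuation x := by
  obtain ⟨n, hn, hfix⟩ := exists_pow_apply_eq σ x
  rcases lt_trichotomy (A.valuation (σ x)) (A.valuation x) with h | h | h
  · exfalso
    have key : ∀ k : ℕ, A.valuation ((σ ^ (k + 1)) x) < A.valuation x := by
      intro k
      induction k with
      | zero => simpa using h
      | succ k ih =>
        have := valuation_lt_of_mem_decomposition hσ ih
        rw [pow_succ' σ (k + 1), AlgEquiv.mul_apply]
        exact this.trans h
    have := key (n - 1)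
    rw [Nat.sub_add_cancel hn, hfix] at this
    exact lt_irrefl _ this
  · exact h
  · exfalso
    have key : ∀ k : ℕ, A.valuation x < A.valuation ((σ ^ (k + 1)) x) := by
      intro k
      induction k with
      | zero => simpa using h
      | succ k ih =>
        have := valuation_lt_of_mem_decomposition hσ ih
        rw [pow_succ' σ (k + 1), AlgEquiv.mul_apply]
        exact h.trans this
    have := key (n - 1)
    rw [Nat.sub_add_cancel hn, hfix] at this
    exact lt_irrefl _ this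

/-- **H0'**: elements of the inertia group act trivially modulo the maximal ideal. -/
theorem valuation_sub_lt_one_of_mem_inertia (hσ : σ ∈ A.inertiaSubgroupIn ℚ) {x : Qbar}
    (hx : A.valuation x ≤ 1) : A.valuation (σ x - x) < 1 := by
  obtain ⟨τ, hτ, rfl⟩ := Subgroup.mem_map.1 hσ
  have hxA : x ∈ A := (A.valuation_le_one_iff x).1 hx
  have h1 : MulSemiringAction.toRingAut (A.decompositionSubgroup ℚ) (IsLocalRing.ResidueField A) τ
      = 1 := hτ
  have h2 : τ • (IsLocalRing.residue A ⟨x, hxA⟩) = IsLocalRing.residue A ⟨x, hxA⟩ := by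
    have := congrArg (fun f => f (IsLocalRing.residue A ⟨x, hxA⟩)) h1
    simpa using this
  have h3 : IsLocalRing.residue A (τ • (⟨x, hxA⟩ : A)) = IsLocalRing.residue A ⟨x, hxA⟩ := by
    rw [← h2]; rfl
  have h4 : (τ • (⟨x, hxA⟩ : A)) - ⟨x, hxA⟩ ∈ IsLocalRing.maximalIdeal A := by
    rw [← IsLocalRing.residue_eq_zero_iff, map_sub, h3, sub_self]
  exact (A.valuation_lt_one_iff _).1 h4

end Invariance

section RootsOfUnity

variable {A : ValuationSubring Qbar}

theorem valuation_eq_one_of_pow_eq_one {μ : Qbar} {m : ℕ} (hm : m ≠ 0) (hμ : μ ^ m = 1) :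
    A.valuation μ = 1 := by
  have h := congrArg A.valuation hμ
  rw [map_pow, map_one] at h
  exact (pow_eq_one_iff.mp h).resolve_right hm

theorem valuation_geom_sum_le_one {μ : Qbar} {m : ℕ} (hm : m ≠ 0) (hμ : μ ^ m = 1) (i : ℕ) :
    A.valuation (∑ j ∈ Finset.range i, μ ^ j) ≤ 1 := by
  refine Valuation.map_sum_le _ (fun j _ => ?_)
  rw [map_pow, valuation_eq_one_of_pow_eq_one hm hμ, one_pow]

/-- All nontrivial `p`-th roots of unity are at the same distance of `1`. -/
theorem valuation_sub_one_eq {p : ℕ} (hp : p.Prime) {ζ ν : Qbar} (hζ : IsPrimitiveRoot ζ p)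
    (hν : ν ^ p = 1) (hν1 : ν ≠ 1) : A.valuation (ν - 1) = A.valuation (ζ - 1) := by
  have : NeZero p := ⟨hp.ne_zero⟩
  have key : ∀ {a b : Qbar}, a ^ p = 1 → (∃ i : ℕ, a ^ i = b) →
      A.valuation (b - 1) ≤ A.valuation (a - 1) := by
    rintro a b ha ⟨i, rfl⟩
    rw [← mul_geom_sum a i, map_mul]
    calc _ ≤ A.valuation (a - 1) * 1 :=
          mul_le_mul_right (valuation_geom_sum_le_one hp.ne_zero ha i) _
      _ = _ := mul_one _
  have hν' : IsPrimitiveRoot ν p := by
    have h1 : orderOf ν ∣ p := orderOf_dvd_of_pow_eq_one hν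
    rcases (Nat.dvd_prime hp).mp h1 with h | h
    · exact absurd (orderOf_eq_one_iff.mp h) hν1
    · rw [← h]; exact IsPrimitiveRoot.orderOf ν
  refine le_antisymm (key hζ.pow_eq_one ?_) (key hν ?_)
  · obtain ⟨i, -, hi⟩ := hζ.eq_pow_of_pow_eq_one hν
    exact ⟨i, hi⟩
  · obtain ⟨i, -, hi⟩ := hν'.eq_pow_of_pow_eq_one hζ.pow_eq_one
    exact ⟨i, hi⟩

/-- A root of unity of order prime to the residue characteristic is not congruent to `1`. -/
theorem valuation_sub_one_eq_one {ℓ m : ℕ} (hA : A.LiesOverPrime ℓ) (hℓ : ℓ.Prime)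
    (hm : Nat.Coprime ℓ m) {μ : Qbar} (hμ : μ ^ m = 1) (hμ1 : μ ≠ 1) :
    A.valuation (μ - 1) = 1 := by
  have hm0 : m ≠ 0 := by
    rintro rfl
    rw [Nat.coprime_zero_right] at hm
    exact hℓ.one_lt.ne' hm
  set d := orderOf μ with hd
  have hdm : d ∣ m := orderOf_dvd_of_pow_eq_one hμ
  have hd0 : d ≠ 0 := fun h => hm0 (by rw [h] at hdm; exact Nat.eq_zero_of_zero_dvd hdm)
  have hd1 : d ≠ 1 := fun h => hμ1 (orderOf_eq_one_iff.mp h)
  obtain ⟨n, hn⟩ : ∃ n, d = n + 1 := ⟨d - 1, by omega⟩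
  have hprim : IsPrimitiveRoot μ (n + 1) := by rw [← hn]; exact IsPrimitiveRoot.orderOf μ
  have hprod := hprim.prod_one_sub_pow_eq_order
  have hμd : μ ^ d = 1 := pow_orderOf_eq_one μ
  -- the valuation of `d` is one
  have hvd : A.valuation ((n : Qbar) + 1) = 1 := by
    have hcop : Nat.Coprime ℓ d := Nat.Coprime.coprime_dvd_right hdm hm
    obtain ⟨a, b, hab⟩ := Nat.isCoprime_iff_coprime.mpr hcop
    have h1 : (a : Qbar) * ℓ + b * d = 1 := by exact_mod_cast congrArg (Int.cast : ℤ → Qbar) hab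
    have hint : ∀ z : ℤ, A.valuation (z : Qbar) ≤ 1 := fun z =>
      (A.valuation_le_one_iff _).mpr (intCast_mem A z)
    have hℓ1 : A.valuation (ℓ : Qbar) < 1 := A.mem_nonunits_iff.mp hA
    have hdle : A.valuation (d : Qbar) ≤ 1 := by
      have := hint (d : ℤ)
      rwa [Int.cast_natCast] at this
    have hcast : ((n : Qbar) + 1) = (d : Qbar) := by rw [hn]; push_cast; ring
    rw [hcast]
    refine le_antisymm hdle ?_
    by_contra hlt
    rw [not_le] at hlt
    have h2 : A.valuation ((a : Qbar) * ℓ + b * d) < 1 := by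
      refine lt_of_le_of_lt (A.valuation.map_add _ _) (max_lt ?_ ?_)
      · rw [map_mul]
        calc _ ≤ 1 * A.valuation (ℓ : Qbar) := mul_le_mul_left (hint a) _
          _ < 1 := by rw [one_mul]; exact hℓ1
      · rw [map_mul]
        calc _ ≤ 1 * A.valuation (d : Qbar) := mul_le_mul_left (hint b) _
          _ < 1 := by rw [one_mul]; exact hlt
    rw [h1, map_one] at h2
    exact lt_irrefl _ h2
  have hle : ∀ k : ℕ, A.valuation (1 - μ ^ (k + 1)) ≤ 1 := by
    intro k
    refine (A.valuation.map_sub _ _).trans (max_le (by rw [map_one]) ?_)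
    rw [map_pow, valuation_eq_one_of_pow_eq_one hd0 hμd, one_pow]
  have hn0 : 0 ∈ Finset.range n := by
    rw [Finset.mem_range]; omega
  have h3 := congrArg A.valuation hprod
  rw [hvd, map_prod, ← Finset.mul_prod_erase _ _ hn0] at h3
  have h4 : ∏ k ∈ (Finset.range n).erase 0, A.valuation (1 - μ ^ (k + 1)) ≤ 1 :=
    Finset.prod_le_one' (fun k _ => hle k)
  have h5 : A.valuation (1 - μ ^ (0 + 1)) = 1 := by
    refine le_antisymm (hle 0) ?_
    calc (1 : A.ValueGroup) = _ := h3.symm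
      _ ≤ A.valuation (1 - μ ^ (0 + 1)) * 1 := mul_le_mul_right h4 _
      _ = _ := mul_one _
  rw [zero_add, pow_one] at h5
  rw [← h5, ← neg_sub, Valuation.map_neg]

end RootsOfUnity

section Hensel

variable {A : ValuationSubring Qbar}

/-- **H2**: Hensel's lemma for `p`-th roots: the root closest to `1` is fixed by every element of
the decomposition group fixing `x`. -/
theorem exists_root_fixed {p : ℕ} (hp : p.Prime) {ζ : Qbar} (hζ : IsPrimitiveRoot ζ p) {x : Qbar}
    (hx : A.valuation (x - 1) < A.valuation (ζ - 1) ^ p) :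
    ∃ y : Qbar, y ^ p = x ∧ A.valuation (y - 1) < A.valuation (ζ - 1) ∧
      ∀ σ ∈ A.decompositionSubgroup ℚ, σ x = x → σ y = y := by
  have hζ1 : A.valuation (ζ - 1) ≤ 1 := by
    refine (A.valuation.map_sub _ _).trans (max_le ?_ (by rw [map_one]))
    rw [valuation_eq_one_of_pow_eq_one hp.ne_zero hζ.pow_eq_one]
  obtain ⟨y₀, hy₀⟩ := IsAlgClosed.exists_pow_nat_eq x hp.pos
  have hprod := hζ.pow_sub_pow_eq_prod_sub_mul (1 : Qbar) y₀ hp.pos
  rw [one_pow, hy₀] at hprod
  -- some root is close to `1`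
  obtain ⟨μ, hμ, hμlt⟩ : ∃ μ ∈ Polynomial.nthRootsFinset p (1 : Qbar),
      A.valuation (1 - μ * y₀) < A.valuation (ζ - 1) := by
    by_contra hcon
    push Not at hcon
    have h1 : A.valuation (ζ - 1) ^ p ≤ A.valuation (1 - x) := by
      rw [hprod, map_prod]
      calc A.valuation (ζ - 1) ^ p
          = ∏ _i ∈ Polynomial.nthRootsFinset p (1 : Qbar), A.valuation (ζ - 1) := by
            rw [Finset.prod_const, hζ.card_nthRootsFinset]
        _ ≤ _ := Finset.prod_le_prod' hcon
    rw [← neg_sub x 1, Valuation.map_neg] at h1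
    exact absurd hx (not_lt.mpr h1)
  have hμp : μ ^ p = 1 := (Polynomial.mem_nthRootsFinset hp.pos 1).mp hμ
  set y := μ * y₀ with hy
  have hyp : y ^ p = x := by rw [hy, mul_pow, hμp, one_mul, hy₀]
  have hy1 : A.valuation (y - 1) < A.valuation (ζ - 1) := by
    rw [← neg_sub, Valuation.map_neg]; exact hμlt
  have hyv : A.valuation y = 1 := by
    have h2 : y = 1 + (y - 1) := by ring
    rw [h2, A.valuation.map_add_eq_of_lt_left (by rw [map_one]; exact hy1.trans_le hζ1), map_one]
  have hy0 : y ≠ 0 := by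
    rintro h
    rw [h, map_zero] at hyv
    exact zero_ne_one hyv
  refine ⟨y, hyp, hy1, fun σ hσ hσx => ?_⟩
  by_contra hne
  set ν := σ y / y with hν
  have hνp : ν ^ p = 1 := by
    rw [hν, div_pow, ← map_pow, hyp, hσx, div_self]
    rw [← hyp]; exact pow_ne_zero _ hy0
  have hν1 : ν ≠ 1 := by
    intro h
    rw [hν, div_eq_one_iff_eq hy0] at h
    exact hne h
  have h3 := valuation_sub_one_eq (A := A) hp hζ hνp hν1
  have h4 : σ y - y = (ν - 1) * y := by
    rw [hν]; field_simp
  have h5 : A.valuation (σ y - y) = A.valuation (ζ - 1) := by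
    rw [h4, map_mul, h3, hyv, mul_one]
  have h6 : A.valuation (σ y - 1) < A.valuation (ζ - 1) := by
    have : σ y - 1 = σ (y - 1) := by rw [map_sub, map_one]
    rw [this, valuation_apply_of_mem_decomposition hσ]
    exact hy1
  have h7 : A.valuation (σ y - y) < A.valuation (ζ - 1) := by
    have : σ y - y = (σ y - 1) - (y - 1) := by ring
    rw [this]
    exact lt_of_le_of_lt (A.valuation.map_sub _ _) (max_lt h6 hy1)
  rw [h5] at h7
  exact lt_irrefl _ h7

end Hensel

section Model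

theorem exists_galois_model_aux (M : Type) [Field M] [CharZero M] [inst : Algebra ℚ M]
    [FiniteDimensional ℚ M] [IsGalois ℚ M] (ψ : M →+* Qbar) (P : Qbar → Prop)
    (hψ : ∀ x : Qbar, (∃ y : M, ψ y = x) ↔ P x) :
    ∃ (M : Type) (_ : Field M) (_ : NumberField M) (_ : IsGalois ℚ M) (ψ : M →+* Qbar),
      ∀ x : Qbar, (∃ y : M, ψ y = x) ↔ P x := by
  obtain rfl : inst = DivisionRing.toRatAlgebra := Subsingleton.elim _ _
  exact ⟨M, inferInstance, ⟨⟩, inferInstance, ψ, hψ⟩

/-- A finite extension of `ℚ` inside `ℚ̄` is contained in the image of an abstract Galois number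
field. -/
theorem exists_galois_model (E : IntermediateField ℚ Qbar) [FiniteDimensional ℚ E] :
    ∃ (N : Type) (_ : Field N) (_ : NumberField N) (_ : IsGalois ℚ N) (ψ : N →+* Qbar),
      ∀ x ∈ E, ∃ y : N, ψ y = x := by
  set L : IntermediateField ℚ Qbar := IntermediateField.normalClosure ℚ E Qbar with hL
  have hfin : @FiniteDimensional ℚ L _ _ (IntermediateField.algebra' L).toModule :=
    normalClosure.is_finiteDimensional ℚ E Qbar
  have hnor : @Normal ℚ L _ _ (IntermediateField.algebra' L) := normalClosure.normal ℚ E Qbar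
  have hgal : @IsGalois ℚ _ L _ (IntermediateField.algebra' L) :=
    @IsGalois.mk ℚ _ L _ (IntermediateField.algebra' L) inferInstance hnor
  obtain ⟨N, i1, i2, i3, ψ, hψ⟩ := @exists_galois_model_aux L _ _ (IntermediateField.algebra' L)
    hfin hgal (algebraMap L Qbar) (fun x => x ∈ L) (fun x => ⟨by rintro ⟨y, rfl⟩; exact y.2,
      fun h => ⟨⟨x, h⟩, rfl⟩⟩)
  exact ⟨N, i1, i2, i3, ψ, fun x hx => (hψ x).mpr (IntermediateField.le_normalClosure E hx)⟩

theorem exists_ringHom_factor {K M F : Type*} [Field K] [Field M] [Field F] (φ : K →+* F)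
    (ψ : M →+* F) (h : ∀ x : K, ∃ y : M, ψ y = φ x) : ∃ ι : K →+* M, ∀ x : K, ψ (ι x) = φ x := by
  choose f hf using h
  refine ⟨{ toFun := f, map_one' := ?_, map_mul' := ?_, map_zero' := ?_, map_add' := ?_ }, hf⟩
  · apply ψ.injective; rw [hf, map_one, map_one]
  · intro a b; apply ψ.injective; rw [hf, map_mul, map_mul, hf, hf]
  · apply ψ.injective; rw [hf, map_zero, map_zero]
  · intro a b; apply ψ.injective; rw [hf, map_add, map_add, hf, hf]

theorem finiteDimensional_imageField {K : Type*} [Field K] [NumberField K] (φ : K →+* Qbar) :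
    FiniteDimensional ℚ (imageField φ) := by
  let f : K →ₗ[ℚ] (imageField φ) :=
    { toFun := fun x => ⟨φ x, ⟨x, rfl⟩⟩
      map_add' := fun a b => Subtype.ext (map_add φ a b)
      map_smul' := fun q a => Subtype.ext (by
        simp only [RingHom.id_apply]
        exact map_rat_smul φ q a) }
  exact Module.Finite.of_surjective f (by
    rintro ⟨_, ⟨x, rfl⟩⟩
    exact ⟨x, rfl⟩)

end Model

section Density

variable {K : Type*} [Field K] [NumberField K] (φ : K →+* Qbar) (A : ValuationSubring Qbar)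

/-- The absolute Galois group of the henselisation of `K` at `A`. -/
noncomputable def locGroup : Subgroup GQ := A.decompositionSubgroup ℚ ⊓ fixer φ

variable {φ A} {ℓ : ℕ}

omit [NumberField K] in
theorem mem_locGroup {σ : GQ} :
    σ ∈ locGroup φ A ↔ σ ∈ A.decompositionSubgroup ℚ ∧ ∀ x : K, σ (φ x) = φ x := Iff.rfl

/-- abstract form: the decomposition field has `e = f = 1`. -/
theorem exists_ef_model (hℓ : ℓ.Prime) (hA : A.LiesOverPrime ℓ) {y : Qbar}
    (hy : ∀ σ ∈ locGroup φ A, σ y = y) :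
    ∃ (M : Type) (_ : Field M) (_ : NumberField M) (_ : Algebra K M) (ψ : M →+* Qbar),
      (∀ x : K, ψ (algebraMap K M x) = φ x) ∧ (∃ z : M, ψ z = y) ∧
      (primeBelow ψ A).ramificationIdx (𝓞 K) = 1 ∧ (primeBelow ψ A).inertiaDeg (𝓞 K) = 1 := by
  have := finiteDimensional_imageField φ
  have : FiniteDimensional ℚ (IntermediateField.adjoin ℚ {y}) :=
    IntermediateField.adjoin.finiteDimensional (Algebra.IsIntegral.isIntegral _)
  obtain ⟨N, _, _, _, ψN, hψN⟩ := exists_galois_model (imageField φ ⊔ IntermediateField.adjoin ℚ {y})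
  obtain ⟨ι, hι⟩ := exists_ringHom_factor φ ψN (fun x => hψN _
    ((le_sup_left : imageField φ ≤ _) ⟨x, rfl⟩))
  obtain ⟨yN, hyN⟩ := hψN y ((le_sup_right : IntermediateField.adjoin ℚ {y} ≤ _)
    (IntermediateField.mem_adjoin_simple_self ℚ y))
  let : Algebra K N := ι.toAlgebra
  have hι' : ∀ x : K, ψN (algebraMap K N x) = φ x := hι
  have : IsScalarTower ℚ K N := IsScalarTower.of_algebraMap_eq' (Subsingleton.elim _ _)
  have : IsGalois K N := IsGalois.tower_top_of_isGalois ℚ K N
  set Q : Ideal (𝓞 N) := primeBelow ψN A with hQ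
  let D : IntermediateField K N :=
    FixedPoints.intermediateField (MulAction.stabilizer (N ≃ₐ[K] N) Q)
  have hyD : yN ∈ D := by
    rintro ⟨τ, hτ⟩
    have h1 : τ • Q = Q := hτ
    obtain ⟨σ, hσ, h⟩ := exists_lift_decomposition (φ := ψN) hℓ hA (τ : N ≃+* N) (fun c => by
      conv_rhs => rw [← hQ, ← h1]
      exact (Ideal.smul_mem_pointwise_smul_iff (a := τ)).symm)
    have h2 : σ y = y := hy σ ⟨hσ, fun x => by
      rw [← hι', h]
      congr 1
      exact τ.commutes x⟩
    apply ψN.injective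
    have h3 := h yN
    rw [hyN, h2] at h3
    rw [hyN]
    exact h3.symm
  let ψD : D →+* Qbar := ψN.comp (algebraMap D N)
  have hD1 : ∀ x : D, ψN (algebraMap D N x) = ψD x := fun x => rfl
  have hD2 : ∀ x : K, ψD (algebraMap K D x) = φ x := fun x => hι' x
  have hm0 : (primeBelow φ A).IsMaximal :=
    Ring.DimensionLEOne.maximalOfPrime (primeBelow_ne_bot hℓ hA) inferInstance
  have hm1 : (primeBelow ψD A).IsMaximal :=
    Ring.DimensionLEOne.maximalOfPrime (primeBelow_ne_bot hℓ hA) inferInstance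
  have hm2 : Q.IsMaximal :=
    Ring.DimensionLEOne.maximalOfPrime (primeBelow_ne_bot hℓ hA) inferInstance
  have hl1 : Q.LiesOver (primeBelow φ A) := ⟨(primeBelow_under hι').symm⟩
  have hl2 : Q.LiesOver (primeBelow ψD A) := ⟨(primeBelow_under hD1).symm⟩
  have hl3 : (primeBelow ψD A).LiesOver (primeBelow φ A) := ⟨(primeBelow_under hD2).symm⟩
  refine ⟨D, inferInstance, inferInstance, inferInstance, ψD, hD2, ⟨⟨yN, hyD⟩, hyN⟩, ?_, ?_⟩
  · exact IsDecompositionField.ramificationIdx_eq (𝓞 K) K N Q D (𝓞 D) (primeBelow ψD A)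
      (p := primeBelow φ A) (primeBelow_ne_bot hℓ hA)
  · exact IsDecompositionField.inertiaDeg_eq (𝓞 K) K N Q D (𝓞 D) (primeBelow ψD A)
      (p := primeBelow φ A) (primeBelow_ne_bot hℓ hA)

end Density

section Density2

variable {K : Type*} [Field K] [NumberField K] {φ : K →+* Qbar} {A : ValuationSubring Qbar}
  {ℓ : ℕ}

/-- For every nonzero `b` there is a level `n` with `exp (-n) ≤ v b`. -/
theorem exists_exp_neg_le {R F : Type*} [CommRing R] [IsDedekindDomain R] [Field F]
    [Algebra R F] [IsFractionRing R F] (w : HeightOneSpectrum R) {b : F} (hb : b ≠ 0) :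
    ∃ n : ℕ, WithZero.exp (-(n : ℤ)) ≤ w.valuation F b := by
  have h0 : w.valuation F b ≠ 0 := ((w.valuation F).ne_zero_iff).mpr hb
  refine ⟨(- WithZero.log (w.valuation F b)).toNat, ?_⟩
  conv_rhs => rw [← WithZero.exp_log h0]
  rw [WithZero.exp_le_exp]
  have := Int.self_le_toNat (- WithZero.log (w.valuation F b))
  omega

/-- **H1**: `K` is dense in its henselisation at `A`. General bound `b`. -/
theorem exists_close_of_fixed' (hℓ : ℓ.Prime) (hA : A.LiesOverPrime ℓ) {y : Qbar} (hy0 : y ≠ 0)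
    (hy : ∀ σ ∈ locGroup φ A, σ y = y) {b : K} (hb : b ≠ 0) :
    ∃ c : K, c ≠ 0 ∧ A.valuation (y / φ c) = 1 ∧
      A.valuation (y / φ c - 1) ≤ A.valuation (φ b) := by
  obtain ⟨M, _, _, _, ψ, hι, ⟨z, hz⟩, he, hf⟩ := exists_ef_model hℓ hA hy
  set w := placeBelow ψ hℓ A hA with hwdef
  have hw : w.asIdeal = primeBelow ψ A := rfl
  have hz0 : z ≠ 0 := by
    rintro rfl
    rw [map_zero] at hz
    exact hy0 hz.symm
  have hb' : algebraMap K M b ≠ 0 := by
    rw [Ne, map_eq_zero]; exact hb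
  obtain ⟨n, hn⟩ := exists_exp_neg_le (F := M) w hb'
  obtain ⟨c, hc0, h1, h2⟩ := exists_close_of_ef hℓ hA hι he hf hw hz0 n
  refine ⟨c, hc0, ?_, ?_⟩
  · have := (valuation_eq_one_iff hw).mpr h1
    rwa [map_div₀, hz, hι] at this
  · have := (valuation_le_iff hw).mpr (h2.trans hn)
    rwa [map_sub, map_div₀, hz, hι, hι, map_one] at this

/-- **H1**: `K` is dense in its henselisation at `A`. -/
theorem exists_close_of_fixed (hℓ : ℓ.Prime) (hA : A.LiesOverPrime ℓ) {y : Qbar} (hy0 : y ≠ 0)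
    (hy : ∀ σ ∈ locGroup φ A, σ y = y) (n : ℕ) :
    ∃ c : K, c ≠ 0 ∧ A.valuation (y / φ c) = 1 ∧
      A.valuation (y / φ c - 1) ≤ A.valuation (ℓ : Qbar) ^ n := by
  have hb : ((ℓ : K) ^ n) ≠ 0 := pow_ne_zero _ (by exact_mod_cast hℓ.ne_zero)
  obtain ⟨c, h0, h1, h2⟩ := exists_close_of_fixed' (φ := φ) hℓ hA hy0 hy hb
  refine ⟨c, h0, h1, ?_⟩
  rwa [map_pow, map_natCast, map_pow] at h2

/-- `v(p) = v(ζ - 1) ^ (p - 1)`. -/
theorem valuation_natCast_eq_pow {p : ℕ} (hp : p.Prime) {ζ : Qbar} (hζ : IsPrimitiveRoot ζ p) :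
    A.valuation (p : Qbar) = A.valuation (ζ - 1) ^ (p - 1) := by
  obtain ⟨n, rfl⟩ : ∃ n, p = n + 1 := ⟨p - 1, by have := hp.pos; omega⟩
  have hprod := hζ.prod_one_sub_pow_eq_order
  have h1 : ((n + 1 : ℕ) : Qbar) = (n : Qbar) + 1 := by push_cast; ring
  rw [h1, ← hprod, map_prod, Nat.add_sub_cancel]
  calc _ = ∏ _k ∈ Finset.range n, A.valuation (ζ - 1) := by
        refine Finset.prod_congr rfl (fun k hk => ?_)
        rw [← neg_sub, Valuation.map_neg]
        refine valuation_sub_one_eq hp hζ (by rw [← pow_mul, mul_comm, pow_mul, hζ.pow_eq_one,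
          one_pow]) ?_
        intro h
        have h2 := hζ.dvd_of_pow_eq_one _ h
        have h3 := Nat.le_of_dvd (Nat.succ_pos k) h2
        rw [Finset.mem_range] at hk
        omega
    _ = _ := by rw [Finset.prod_const, Finset.card_range]

theorem valuation_natCast_sq_le {p : ℕ} (hp : p.Prime) {ζ : Qbar} (hζ : IsPrimitiveRoot ζ p) :
    A.valuation (p : Qbar) ^ 2 ≤ A.valuation (ζ - 1) ^ p := by
  have hζ1 : A.valuation (ζ - 1) ≤ 1 := by
    refine (A.valuation.map_sub _ _).trans (max_le ?_ (by rw [map_one]))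
    rw [valuation_eq_one_of_pow_eq_one hp.ne_zero hζ.pow_eq_one]
  have h1 : A.valuation (p : Qbar) ≤ A.valuation (ζ - 1) := by
    rw [valuation_natCast_eq_pow hp hζ]
    exact pow_le_of_le_one zero_le hζ1 (by have := hp.two_le; omega)
  have h2 : p = (p - 1) + 1 := by have := hp.pos; omega
  calc A.valuation (p : Qbar) ^ 2 = A.valuation (p : Qbar) * A.valuation (p : Qbar) := sq _
    _ ≤ A.valuation (p : Qbar) * A.valuation (ζ - 1) := mul_le_mul_right h1 _
    _ = A.valuation (ζ - 1) ^ p := by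
      rw [valuation_natCast_eq_pow hp hζ, ← pow_succ, ← h2]

/-- **H3**: an element of `K` is a `p`-th power in the henselisation of `K` at `A` iff it is
arbitrarily close to `p`-th powers of `K` at the place below `A`. -/
theorem exists_root_fixed_iff (hℓ : ℓ.Prime) (hA : A.LiesOverPrime ℓ)
    {v : HeightOneSpectrum (𝓞 K)} (hv : v.asIdeal = primeBelow φ A) {p : ℕ} (hp : p.Prime)
    {x : K} (hx : x ≠ 0) :
    (∃ y : Qbar, y ^ p = φ x ∧ ∀ σ ∈ locGroup φ A, σ y = y) ↔
      ∀ n : ℕ, ∃ c : K, c ≠ 0 ∧ v.valuation K (x / c ^ p - 1) ≤ WithZero.exp (-(n : ℤ)) := by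
  have : NeZero p := ⟨hp.ne_zero⟩
  constructor
  · rintro ⟨y, hyp, hy⟩ n
    have hy0 : y ≠ 0 := by
      rintro rfl
      rw [zero_pow hp.ne_zero] at hyp
      exact hx ((map_eq_zero φ).mp hyp.symm)
    obtain ⟨c, hc0, h1, h2⟩ := exists_close_of_fixed (φ := φ) hℓ hA hy0 hy n
    refine ⟨c, hc0, ?_⟩
    set t : Qbar := y / φ c with ht
    have h3 : φ (x / c ^ p - 1) = (t - 1) * ∑ i ∈ Finset.range p, t ^ i := by
      rw [mul_geom_sum, map_sub, map_div₀, map_pow, ← hyp, map_one, ht, div_pow]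
    have h4 : A.valuation (∑ i ∈ Finset.range p, t ^ i) ≤ 1 := by
      refine Valuation.map_sum_le _ (fun i _ => ?_)
      rw [map_pow, h1, one_pow]
    have h5 : A.valuation (φ (x / c ^ p - 1)) ≤ A.valuation (φ ((ℓ : K) ^ n)) := by
      rw [h3, map_mul, map_pow, map_natCast, map_pow]
      calc _ ≤ A.valuation (t - 1) * 1 := mul_le_mul_right h4 _
        _ ≤ _ := by rw [mul_one]; exact h2
    rw [valuation_le_iff hv] at h5
    refine h5.trans ?_
    have h6 : v.valuation K (ℓ : K) ≤ WithZero.exp (-1 : ℤ) := by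
      rw [← lt_one_iff_le_exp_neg_one]
      have h7 : (ℓ : 𝓞 K) ∈ v.asIdeal := hv ▸ natCast_mem_primeBelow φ hA
      have := (v.valuation_lt_one_iff_mem (K := K) (ℓ : 𝓞 K)).mpr h7
      simpa using this
    rw [map_pow]
    calc _ ≤ WithZero.exp (-1 : ℤ) ^ n := pow_le_pow_left₀ zero_le h6 n
      _ = _ := by rw [← WithZero.exp_nsmul]; simp
  · intro h
    obtain ⟨ζ, hζ⟩ := HasEnoughRootsOfUnity.exists_primitiveRoot Qbar p
    have hb : ((ℓ : K) * (p : K) ^ 2) ≠ 0 :=
      mul_ne_zero (by exact_mod_cast hℓ.ne_zero) (pow_ne_zero _ (by exact_mod_cast hp.ne_zero))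
    obtain ⟨n, hn⟩ := exists_exp_neg_le (F := K) v hb
    obtain ⟨c, hc0, hc⟩ := h n
    have h1 := (valuation_le_iff hv).mpr (hc.trans hn)
    have hp0 : A.valuation (p : Qbar) ≠ 0 :=
      (A.valuation.ne_zero_iff).mpr (by exact_mod_cast hp.ne_zero)
    have h2 : A.valuation (φ (x / c ^ p) - 1) < A.valuation (ζ - 1) ^ p := by
      rw [map_sub, map_one, map_mul, map_pow, map_natCast, map_natCast, map_mul, map_pow] at h1
      refine lt_of_le_of_lt h1 (lt_of_lt_of_le ?_ (valuation_natCast_sq_le hp hζ))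
      have hℓ1 : A.valuation (ℓ : Qbar) < 1 := A.mem_nonunits_iff.mp hA
      calc _ < 1 * A.valuation (p : Qbar) ^ 2 :=
            mul_lt_mul_of_pos_right hℓ1 (zero_lt_iff.mpr (pow_ne_zero _ hp0))
        _ = _ := one_mul _
    obtain ⟨y', hy'p, -, hy'⟩ := exists_root_fixed hp hζ h2
    refine ⟨y' * φ c, ?_, fun σ hσ => ?_⟩
    · rw [mul_pow, hy'p, ← map_pow, ← map_mul, div_mul_cancel₀ _ (pow_ne_zero _ hc0)]
    · rw [map_mul, hσ.2 c, hy' σ hσ.1 (hσ.2 _)]

end Density2

end Fermat.Agent.Bridge
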