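import Mathlib
import Fermat.Agent.Common.PlaceBridgeHens
import Fermat.Prelude.Def_GroupCohomology_ContinuousUnramified

set_option autoImplicit false

/-!
# Bridge, part 5: Kummer extensions and ramification; the `ord` dictionary
-/

namespace Fermat.Agent.Bridge

open scoped Pointwise NumberField
open Fermat.Agent.S54 Fermat.Agent.S13 IsDedekindDomain

local notation "Qbar" => AlgebraicClosure ℚ
local notation "GQ" => (AlgebraicClosure ℚ ≃ₐ[ℚ] AlgebraicClosure ℚ)
local notation "Zbar" => integralClosure ℤ (AlgebraicClosure ℚ)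

section Kummer

variable {A : ValuationSubring Qbar} {ℓ : ℕ}

/-- **K1** (Kummer unramified criterion, pointwise form). -/
theorem apply_eq_of_mem_inertia_of_pow (hℓ : ℓ.Prime) (hA : A.LiesOverPrime ℓ) {m : ℕ}
    (hm : Nat.Coprime ℓ m) {σ : GQ} (hσ : σ ∈ A.inertiaSubgroupIn ℚ) {x y c : Qbar}
    (hy : y ^ m = x) (hσx : σ x = x) (hc0 : c ≠ 0) (hσc : σ c = c)
    (hval : A.valuation y = A.valuation c) : σ y = y := by
  have hvc : A.valuation c ≠ 0 := (A.valuation.ne_zero_iff).mpr hc0
  have hy0 : y ≠ 0 := by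
    rintro rfl
    rw [map_zero] at hval
    exact hvc hval.symm
  by_contra hne
  set ν := σ y / y with hν
  have hνm : ν ^ m = 1 := by
    rw [hν, div_pow, ← map_pow, hy, hσx, div_self]
    rw [← hy]; exact pow_ne_zero _ hy0
  have hν1 : ν ≠ 1 := by
    intro h
    rw [hν, div_eq_one_iff_eq hy0] at h
    exact hne h
  have h1 := valuation_sub_one_eq_one hA hℓ hm hνm hν1
  have hu : A.valuation (y / c) = 1 := by rw [map_div₀, hval, div_self hvc]
  have h2 := valuation_sub_lt_one_of_mem_inertia hσ hu.le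
  have h3 : σ (y / c) - y / c = (ν - 1) * (y / c) := by
    rw [map_div₀, hσc, hν]; field_simp
  rw [h3, map_mul, h1, hu, one_mul] at h2
  exact lt_irrefl _ h2

theorem apply_eq_of_mem_adjoin_simple {σ : GQ} {y z : Qbar} (hy : σ y = y)
    (hz : z ∈ IntermediateField.adjoin ℚ {y}) : σ z = z := by
  have h1 : IntermediateField.adjoin ℚ {y} ≤ IntermediateField.fixedField (Subgroup.zpowers σ) := by
    rw [IntermediateField.adjoin_le_iff, Set.singleton_subset_iff]
    rintro ⟨τ, n, rfl⟩
    show (σ ^ n) y = y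
    have h2 : σ ∈ MulAction.stabilizer GQ y := hy
    exact (MulAction.stabilizer GQ y).zpow_mem h2 n
  exact h1 hz ⟨σ, Subgroup.mem_zpowers σ⟩

/-- **K1** (= GK1) in the language of the Prelude. -/
theorem isUnramifiedOutside_sup_adjoin_root {S : Finset Nat.Primes}
    {F : IntermediateField ℚ Qbar} (hF : F.IsUnramifiedOutside S) {m : ℕ}
    (hm : ∀ q : Nat.Primes, q ∉ S → Nat.Coprime (q : ℕ) m) {x y : Qbar} (hx : x ∈ F)
    (hy : y ^ m = x)
    (hval : ∀ q : Nat.Primes, q ∉ S → ∀ A : ValuationSubring Qbar, A.LiesOverPrime (q : ℕ) →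
      ∃ n : ℤ, A.valuation x = A.valuation ((q : ℕ) : Qbar) ^ (m * n)) :
    (F ⊔ IntermediateField.adjoin ℚ {y}).IsUnramifiedOutside S := by
  have := hF.1
  have : FiniteDimensional ℚ (IntermediateField.adjoin ℚ {y}) :=
    IntermediateField.adjoin.finiteDimensional (Algebra.IsIntegral.isIntegral _)
  refine ⟨IntermediateField.finiteDimensional_sup _ _, fun q hq A hA σ hσ => ?_⟩
  have hσF := hF.2 q hq A hA hσ
  rw [IntermediateField.fixingSubgroup_sup]
  refine ⟨hσF, ?_⟩
  show σ ∈ (IntermediateField.adjoin ℚ {y}).fixingSubgroup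
  rw [IntermediateField.mem_fixingSubgroup_iff]
  intro z hz
  refine apply_eq_of_mem_adjoin_simple ?_ hz
  obtain ⟨n, hn⟩ := hval q hq A hA
  have hq0 : ((q : ℕ) : Qbar) ≠ 0 := by exact_mod_cast q.2.ne_zero
  have hm0 : m ≠ 0 := by
    rintro rfl
    have := hm q hq
    rw [Nat.coprime_zero_right] at this
    exact q.2.one_lt.ne' this
  refine apply_eq_of_mem_inertia_of_pow q.2 hA (hm q hq) hσ hy
    ((IntermediateField.mem_fixingSubgroup_iff _ _).mp hσF x hx)
    (c := ((q : ℕ) : Qbar) ^ n) (zpow_ne_zero _ hq0) (by rw [map_zpow₀, map_natCast]) ?_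
  have h1 : A.valuation y ^ m = (A.valuation (((q : ℕ) : Qbar) ^ n)) ^ m := by
    rw [← map_pow, hy, hn, map_zpow₀, ← zpow_natCast, ← zpow_mul, mul_comm]
  exact (pow_left_inj₀ zero_le zero_le hm0).mp h1

/-- The normal closure of `F` in `Qbar` (with the instance on `F` pinned down). -/
noncomputable def normalHull (F : IntermediateField ℚ Qbar) : IntermediateField ℚ Qbar :=
  @IntermediateField.normalClosure ℚ F Qbar _ _ _ (IntermediateField.algebra' F) _

theorem le_normalHull (F : IntermediateField ℚ Qbar) : F ≤ normalHull F :=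
  IntermediateField.le_normalClosure F

theorem normalHull_eq_iSup (F : IntermediateField ℚ Qbar) :
    normalHull F = ⨆ f : GQ, F.map (f : Qbar →ₐ[ℚ] Qbar) :=
  IntermediateField.normalClosure_def'' F

/-- Inertia at a place outside `S` fixes the normal closure of a field unramified outside `S`. -/
theorem apply_eq_of_mem_normalHull {S : Finset Nat.Primes}
    {F : IntermediateField ℚ Qbar} (hF : F.IsUnramifiedOutside S) {q : Nat.Primes} (hq : q ∉ S)
    {A : ValuationSubring Qbar} (hA : A.LiesOverPrime (q : ℕ)) {σ : GQ}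
    (hσ : σ ∈ A.inertiaSubgroupIn ℚ) {z : Qbar}
    (hz : z ∈ normalHull F) : σ z = z := by
  have h1 : normalHull F ≤ IntermediateField.fixedField (Subgroup.zpowers σ) := by
    rw [normalHull_eq_iSup, iSup_le_iff]
    rintro f _ ⟨z₀, hz₀, rfl⟩ ⟨τ, n, rfl⟩
    show (σ ^ n) (f z₀) = f z₀
    have h2 : σ ∈ MulAction.stabilizer GQ (f z₀) := by
      show σ (f z₀) = f z₀
      have h3 : f⁻¹ * σ * f ∈ (f⁻¹ • A).inertiaSubgroupIn ℚ := by
        rw [mem_inertia_smul_iff q.2 hA]
        simpa [mul_assoc] using hσ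
      have h4 := hF.2 q hq (f⁻¹ • A) (liesOverPrime_smul hA f⁻¹) h3
      have h5 : (f⁻¹ * σ * f) z₀ = z₀ := (IntermediateField.mem_fixingSubgroup_iff _ _).mp h4 z₀ hz₀
      have h6 : f ((f⁻¹ * σ * f) z₀) = σ (f z₀) := by
        rw [← AlgEquiv.mul_apply, ← AlgEquiv.mul_apply]
        congr 1
        group
      rw [← h6, h5]
    exact (MulAction.stabilizer GQ (f z₀)).zpow_mem h2 n
  exact h1 hz ⟨σ, Subgroup.mem_zpowers σ⟩

/-- The normal closure of a number field in `Qbar` as an abstract Galois number field. -/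
theorem exists_galois_model_normalHull (E : IntermediateField ℚ Qbar) [FiniteDimensional ℚ E] :
    ∃ (N : Type) (_ : Field N) (_ : NumberField N) (_ : IsGalois ℚ N) (ψ : N →+* Qbar),
      ∀ x : Qbar, (∃ y : N, ψ y = x) ↔ x ∈ normalHull E := by
  set L : IntermediateField ℚ Qbar := normalHull E with hL
  have hfin : @FiniteDimensional ℚ L _ _ (IntermediateField.algebra' L).toModule :=
    normalClosure.is_finiteDimensional ℚ E Qbar
  have hnor : @Normal ℚ L _ _ (IntermediateField.algebra' L) := normalClosure.normal ℚ E Qbar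
  have hgal : @IsGalois ℚ _ L _ (IntermediateField.algebra' L) :=
    @IsGalois.mk ℚ _ L _ (IntermediateField.algebra' L) inferInstance hnor
  exact @exists_galois_model_aux L _ _ (IntermediateField.algebra' L)
    hfin hgal (algebraMap L Qbar) (fun x => x ∈ L) (fun x => ⟨by rintro ⟨y, rfl⟩; exact y.2,
      fun h => ⟨⟨x, h⟩, rfl⟩⟩)

/-- Converse of **K1**: in a field unramified outside `S` all valuations at places outside `S`
are powers of the valuation of the residue characteristic. -/
theorem exists_zpow_of_isUnramifiedOutside {S : Finset Nat.Primes}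
    {F : IntermediateField ℚ Qbar} (hF : F.IsUnramifiedOutside S) {x : Qbar} (hx : x ∈ F)
    (hx0 : x ≠ 0) {q : Nat.Primes} (hq : q ∉ S) {A : ValuationSubring Qbar}
    (hA : A.LiesOverPrime (q : ℕ)) :
    ∃ n : ℤ, A.valuation x = A.valuation ((q : ℕ) : Qbar) ^ n := by
  have := hF.1
  obtain ⟨N, _, _, _, ψ, hψ⟩ := exists_galois_model_normalHull F
  obtain ⟨x', rfl⟩ := (hψ x).mpr (le_normalHull F hx)
  refine exists_zpow_of_inertia_fixes (φ := ψ) q.2 hA (fun σ hσ z => ?_) (x := x') ?_
  · exact apply_eq_of_mem_normalHull hF hq hA hσ ((hψ _).mp ⟨z, rfl⟩)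
  · rintro rfl
    exact hx0 (map_zero ψ)

end Kummer

section Ord

variable {K : Type*} [Field K] [NumberField K] {φ : K →+* Qbar} {A : ValuationSubring Qbar}
  {ℓ : ℕ} {v : HeightOneSpectrum (𝓞 K)}

/-- The `ord` dictionary: `w_A(φ x) ^ e = w_A(ℓ) ^ ord_v(x)` with `e = ord_v(ℓ)`. -/
theorem valuation_zpow_eq (hℓ : ℓ.Prime) (hv : v.asIdeal = primeBelow φ A) {x : K} (hx : x ≠ 0) :
    A.valuation (φ x) ^ (- WithZero.log (v.valuation K (ℓ : K))) =
      A.valuation (ℓ : Qbar) ^ (- WithZero.log (v.valuation K x)) := by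
  have hℓ0 : (ℓ : K) ≠ 0 := by exact_mod_cast hℓ.ne_zero
  have h0 : v.valuation K x ≠ 0 := ((v.valuation K).ne_zero_iff).mpr hx
  have h0' : v.valuation K (ℓ : K) ≠ 0 := ((v.valuation K).ne_zero_iff).mpr hℓ0
  have h1 : v.valuation K (x ^ (- WithZero.log (v.valuation K (ℓ : K)))) =
      v.valuation K ((ℓ : K) ^ (- WithZero.log (v.valuation K x))) := by
    rw [map_zpow₀, map_zpow₀]
    conv_lhs => rw [← WithZero.exp_log h0]
    conv_rhs => rw [← WithZero.exp_log h0']
    rw [← WithZero.exp_zsmul, ← WithZero.exp_zsmul]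
    congr 1
    simp only [smul_eq_mul]
    ring
  have h2 := (valuation_eq_iff hv).mpr h1
  rwa [map_zpow₀, map_zpow₀, map_zpow₀, map_zpow₀, map_natCast φ] at h2

/-- The `ord` dictionary at an unramified place. -/
theorem valuation_eq_zpow_of_isUnramifiedAt (hℓ : ℓ.Prime) (hA : A.LiesOverPrime ℓ)
    (h : Algebra.IsUnramifiedAt ℤ (primeBelow φ A)) (hv : v.asIdeal = primeBelow φ A) {x : K}
    (hx : x ≠ 0) :
    A.valuation (φ x) = A.valuation (ℓ : Qbar) ^ (- WithZero.log (v.valuation K x)) := by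
  have h1 := valuation_zpow_eq (φ := φ) (A := A) hℓ hv hx
  rw [valuation_natCast_of_isUnramifiedAt hℓ hA h hv, WithZero.log_exp] at h1
  simpa using h1

/-- The powers of `w_A(ℓ)` are distinct. -/
theorem zpow_valuation_natCast_injective (hℓ : ℓ.Prime) (hA : A.LiesOverPrime ℓ) :
    Function.Injective (fun n : ℤ => A.valuation (ℓ : Qbar) ^ n) := by
  have h1 : A.valuation (ℓ : Qbar) < 1 := A.mem_nonunits_iff.mp hA
  have h0 : 0 < A.valuation (ℓ : Qbar) :=
    zero_lt_iff.mpr ((A.valuation.ne_zero_iff).mpr (by exact_mod_cast hℓ.ne_zero))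
  exact (zpow_right_strictAnti₀ h0 h1).injective

end Ord

end Fermat.Agent.Bridge
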