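import Mathlib
import Fermat.Agent.Common.PlaceBridgeHens

set_option autoImplicit false

/-!
# Bridge, part 6: the henselian local field `Qbar ^ (D_A ∩ Fix K)`

Concrete facts: uniformiser, finite residue system, Hensel for `N`-th roots (any `N`).
-/

namespace Fermat.Agent.Bridge

open scoped Pointwise NumberField
open Fermat.Agent.S54 Fermat.Agent.S13 IsDedekindDomain

local notation "Qbar" => AlgebraicClosure ℚ
local notation "GQ" => (AlgebraicClosure ℚ ≃ₐ[ℚ] AlgebraicClosure ℚ)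
local notation "Zbar" => integralClosure ℤ (AlgebraicClosure ℚ)

section HenselN

variable {A : ValuationSubring Qbar}

/-- a nontrivial `N`-th root of unity is not closer to `1` than `N` is to `0`. -/
theorem valuation_natCast_le_sub_one {n : ℕ} {ζ : Qbar} (hζ : IsPrimitiveRoot ζ (n + 1)) {k : ℕ}
    (hk : k < n) : A.valuation ((n + 1 : ℕ) : Qbar) ≤ A.valuation (1 - ζ ^ (k + 1)) := by
  have hprod := hζ.prod_one_sub_pow_eq_order
  have h1 : ((n + 1 : ℕ) : Qbar) = (n : Qbar) + 1 := by push_cast; ring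
  have hle : ∀ j : ℕ, A.valuation (1 - ζ ^ (j + 1)) ≤ 1 := fun j => by
    refine (A.valuation.map_sub _ _).trans (max_le (by rw [map_one]) ?_)
    rw [map_pow, valuation_eq_one_of_pow_eq_one (Nat.succ_ne_zero n) hζ.pow_eq_one, one_pow]
  rw [h1, ← hprod, map_prod, ← Finset.mul_prod_erase _ _ (Finset.mem_range.mpr hk)]
  exact mul_le_of_le_one_right zero_le (Finset.prod_le_one (fun _ _ => zero_le) (fun j _ => hle j))

theorem pow_mod_orderOf_aux {m : ℕ} {ζ : Qbar} (hζ : IsPrimitiveRoot ζ m) (j : ℕ) :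
    ζ ^ j = ζ ^ (j % m) := by
  conv_lhs => rw [← Nat.div_add_mod j m, pow_add, pow_mul, hζ.pow_eq_one, one_pow, one_mul]

/-- **Hensel for `N`-th roots, any `N`**: the root closest to `1` is unique, hence fixed by
every element of the decomposition group fixing `x`. -/
theorem exists_nthRoot_fixed {N : ℕ} (hN : 0 < N) {x : Qbar} {γ : A.ValueGroup}
    (hγ : γ < A.valuation (N : Qbar)) (hx : A.valuation (x - 1) ≤ γ * A.valuation (N : Qbar)) :
    ∃ y : Qbar, y ^ N = x ∧ A.valuation (y - 1) ≤ γ ∧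
      ∀ σ ∈ A.decompositionSubgroup ℚ, σ x = x → σ y = y := by
  obtain ⟨n, rfl⟩ : ∃ n, N = n + 1 := ⟨N - 1, by omega⟩
  have hN0 : ((n + 1 : ℕ) : Qbar) ≠ 0 := by exact_mod_cast Nat.succ_ne_zero n
  have : NeZero ((n + 1 : ℕ) : ℚ) := ⟨by exact_mod_cast Nat.succ_ne_zero n⟩
  obtain ⟨ζ, hζ⟩ := HasEnoughRootsOfUnity.exists_primitiveRoot Qbar (n + 1)
  have hvN0 : A.valuation ((n + 1 : ℕ) : Qbar) ≠ 0 := (A.valuation.ne_zero_iff).mpr hN0
  have hvN1 : A.valuation ((n + 1 : ℕ) : Qbar) ≤ 1 := by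
    have := valuation_coe_le_one A ((n + 1 : ℕ) : Zbar)
    simpa using this
  have hζ1 : A.valuation ζ = 1 :=
    valuation_eq_one_of_pow_eq_one (Nat.succ_ne_zero n) hζ.pow_eq_one
  obtain ⟨y₀, hy₀⟩ := IsAlgClosed.exists_pow_nat_eq x (Nat.succ_pos n)
  obtain ⟨i₀, -, hmin⟩ := Finset.exists_min_image (Finset.range (n + 1))
    (fun i => A.valuation (ζ ^ i * y₀ - 1)) ⟨0, Finset.mem_range.mpr (Nat.succ_pos n)⟩
  set y := ζ ^ i₀ * y₀ with hy
  have hyN : y ^ (n + 1) = x := by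
    rw [hy, mul_pow, ← pow_mul, mul_comm i₀, pow_mul, hζ.pow_eq_one, one_pow, one_mul, hy₀]
  have hmin' : ∀ j : ℕ, A.valuation (y - 1) ≤ A.valuation (ζ ^ j * y - 1) := fun j => by
    have h1 : ζ ^ j * y = ζ ^ ((j + i₀) % (n + 1)) * y₀ := by
      rw [hy, ← mul_assoc, ← pow_add, pow_mod_orderOf_aux hζ]
    rw [h1]
    exact hmin _ (Finset.mem_range.mpr (Nat.mod_lt _ (Nat.succ_pos n)))
  have hx1 : A.valuation (x - 1) < 1 := by
    refine lt_of_le_of_lt hx (lt_of_le_of_lt (mul_le_of_le_one_right zero_le hvN1) ?_)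
    exact lt_of_lt_of_le hγ hvN1
  have hvx : A.valuation x = 1 := by
    have := Valuation.map_add_eq_of_lt_right A.valuation (x := x - 1) (y := 1)
      (by rw [map_one]; exact hx1)
    rwa [sub_add_cancel, map_one] at this
  have hvy : A.valuation y = 1 := by
    have h1 : A.valuation y ^ (n + 1) = 1 := by rw [← map_pow, hyN, hvx]
    exact (pow_eq_one_iff_of_nonneg zero_le (Nat.succ_ne_zero n)).mp h1
  have hroot : ∀ k : ℕ, A.valuation (1 - ζ ^ (k + 1)) ≤ A.valuation (ζ ^ (k + 1) * y - 1) :=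
    fun k => by
      have h1 : (1 - ζ ^ (k + 1)) * y = (y - 1) - (ζ ^ (k + 1) * y - 1) := by ring
      have h2 : A.valuation (1 - ζ ^ (k + 1)) = A.valuation ((1 - ζ ^ (k + 1)) * y) := by
        rw [map_mul, hvy, mul_one]
      rw [h2, h1]
      exact (A.valuation.map_sub _ _).trans (max_le (hmin' _) le_rfl)
  have hprod : 1 - x = ∏ i ∈ Finset.range (n + 1), (1 - ζ ^ i * y) := by
    have h1 := congrArg (Polynomial.eval 1) (X_pow_sub_C_eq_prod hζ (Nat.succ_pos n) hyN)
    simpa [Polynomial.eval_prod] using h1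
  have hy1 : A.valuation (y - 1) ≤ γ := by
    have h1 : A.valuation (x - 1) = A.valuation (y - 1) *
        ∏ k ∈ Finset.range n, A.valuation (ζ ^ (k + 1) * y - 1) := by
      rw [← neg_sub, Valuation.map_neg, hprod, Finset.prod_range_succ', map_mul, map_prod,
        pow_zero, one_mul, mul_comm, ← neg_sub, Valuation.map_neg]
      congr 1
      refine Finset.prod_congr rfl (fun k _ => ?_)
      rw [← neg_sub, Valuation.map_neg]
    have h2 : A.valuation ((n + 1 : ℕ) : Qbar) ≤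
        ∏ k ∈ Finset.range n, A.valuation (ζ ^ (k + 1) * y - 1) := by
      have h3 : ((n + 1 : ℕ) : Qbar) = (n : Qbar) + 1 := by push_cast; ring
      rw [h3, ← hζ.prod_one_sub_pow_eq_order, map_prod]
      exact Finset.prod_le_prod' (fun k _ => hroot k)
    have h4 : A.valuation (y - 1) * A.valuation ((n + 1 : ℕ) : Qbar) ≤
        γ * A.valuation ((n + 1 : ℕ) : Qbar) :=
      (mul_le_mul_right h2 _).trans (h1 ▸ hx)
    exact (mul_le_mul_iff_left₀ (zero_lt_iff.mpr hvN0)).mp h4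
  refine ⟨y, hyN, hy1, fun σ hσ hσx => ?_⟩
  have h1 : (σ y) ^ (n + 1) = y ^ (n + 1) := by rw [← map_pow, hyN, hσx]
  have hy0 : y ≠ 0 := by
    rintro h
    rw [h, map_zero] at hvy
    exact zero_ne_one hvy
  have h2 : (σ y / y) ^ (n + 1) = 1 := by rw [div_pow, h1, div_self (pow_ne_zero _ hy0)]
  obtain ⟨j, hj, hj'⟩ := hζ.eq_pow_of_pow_eq_one h2
  rcases Nat.eq_zero_or_pos j with rfl | hjpos
  · rw [pow_zero, eq_comm, div_eq_one_iff_eq hy0] at hj'
    exact hj'
  exfalso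
  obtain ⟨k, rfl⟩ : ∃ k, j = k + 1 := ⟨j - 1, by omega⟩
  have h3 : σ y = ζ ^ (k + 1) * y := by rw [hj']; field_simp
  have h4 : A.valuation (σ y - 1) = A.valuation (y - 1) := by
    have := valuation_apply_of_mem_decomposition hσ (y - 1)
    rwa [map_sub, map_one] at this
  have h5 := hroot k
  rw [← h3, h4] at h5
  have h6 := valuation_natCast_le_sub_one (A := A) hζ (k := k) (by omega)
  exact absurd (h6.trans (h5.trans hy1)) (not_le.mpr hγ)

end HenselN

section Local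

variable {K : Type*} [Field K] [NumberField K] {φ : K →+* Qbar} {A : ValuationSubring Qbar}
  {ℓ : ℕ}

/-- The value group of `Qbar ^ (D_A ∩ Fix K)` is that of `K`. -/
theorem exists_valuation_eq_of_fixed (hℓ : ℓ.Prime) (hA : A.LiesOverPrime ℓ) {x : Qbar}
    (hx0 : x ≠ 0) (hx : ∀ σ ∈ locGroup φ A, σ x = x) :
    ∃ c : K, c ≠ 0 ∧ A.valuation x = A.valuation (φ c) := by
  obtain ⟨c, hc0, h1, -⟩ := exists_close_of_fixed (φ := φ) hℓ hA hx0 hx 0
  refine ⟨c, hc0, ?_⟩
  have h2 : A.valuation (φ c) ≠ 0 := (A.valuation.ne_zero_iff).mpr ((map_ne_zero φ).mpr hc0)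
  rwa [map_div₀, div_eq_one_iff_eq h2] at h1

/-- **(i)** a uniformiser of `K` at the place below `A` is a uniformiser of the henselisation
`Qbar ^ (D_A ∩ Fix K)`. -/
theorem exists_zpow_of_fixed (hℓ : ℓ.Prime) (hA : A.LiesOverPrime ℓ)
    {v : HeightOneSpectrum (𝓞 K)} (hv : v.asIdeal = primeBelow φ A) {ϖ : K}
    (hϖ : v.valuation K ϖ = WithZero.exp (-1 : ℤ)) {x : Qbar}
    (hx0 : x ≠ 0) (hx : ∀ σ ∈ locGroup φ A, σ x = x) :
    ∃ n : ℤ, A.valuation x = A.valuation (φ ϖ) ^ n := by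
  obtain ⟨c, hc0, h1⟩ := exists_valuation_eq_of_fixed (φ := φ) hℓ hA hx0 hx
  have h0 : v.valuation K c ≠ 0 := ((v.valuation K).ne_zero_iff).mpr hc0
  refine ⟨- WithZero.log (v.valuation K c), ?_⟩
  rw [h1, ← map_zpow₀, ← map_zpow₀, valuation_eq_iff hv, map_zpow₀, hϖ, ← WithZero.exp_zsmul]
  simp [WithZero.exp_log h0]

theorem exists_uniformizer_fixed (hℓ : ℓ.Prime) (hA : A.LiesOverPrime ℓ) :
    ∃ ϖ : K, ϖ ≠ 0 ∧ A.valuation (φ ϖ) < 1 ∧
      ∀ x : Qbar, x ≠ 0 → (∀ σ ∈ locGroup φ A, σ x = x) →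
        ∃ n : ℤ, A.valuation x = A.valuation (φ ϖ) ^ n := by
  set v := placeBelow φ hℓ A hA with hvdef
  have hv : v.asIdeal = primeBelow φ A := rfl
  obtain ⟨ϖ, hϖ⟩ := v.valuation_exists_uniformizer K
  refine ⟨ϖ, ?_, ?_, fun x hx0 hx => exists_zpow_of_fixed hℓ hA hv hϖ hx0 hx⟩
  · rintro rfl
    rw [map_zero] at hϖ
    exact WithZero.exp_ne_zero hϖ.symm
  · rw [valuation_lt_one_iff hv, hϖ, ← WithZero.exp_zero, WithZero.exp_lt_exp]
    omega

/-- **(ii)** a finite residue system for `Qbar ^ (D_A ∩ Fix K)`, inside `K`. -/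
theorem exists_residue_system_fixed (hℓ : ℓ.Prime) (hA : A.LiesOverPrime ℓ) :
    ∃ T : Finset K, ∀ x : Qbar, (∀ σ ∈ locGroup φ A, σ x = x) → A.valuation x ≤ 1 →
      ∃ t ∈ T, A.valuation (x - φ t) < 1 := by
  classical
  set v := placeBelow φ hℓ A hA with hvdef
  have hv : v.asIdeal = primeBelow φ A := rfl
  have hfin : Finite (𝓞 K ⧸ primeBelow φ A) :=
    Ideal.finiteQuotientOfFreeOfNeBot _ (primeBelow_ne_bot hℓ hA)
  have := Fintype.ofFinite (𝓞 K ⧸ primeBelow φ A)
  refine ⟨Finset.univ.image (fun q : 𝓞 K ⧸ primeBelow φ A => ((Quotient.out q : 𝓞 K) : K)),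
    fun x hx hx1 => ?_⟩
  -- first approximate by an integer of `K`
  obtain ⟨a, ha⟩ : ∃ a : 𝓞 K, A.valuation (x - φ a) < 1 := by
    rcases eq_or_ne x 0 with rfl | hx0
    · exact ⟨0, by simp⟩
    obtain ⟨c, hc0, h1, h2⟩ := exists_close_of_fixed (φ := φ) hℓ hA hx0 hx 1
    have h3 : A.valuation (φ c) ≠ 0 := (A.valuation.ne_zero_iff).mpr ((map_ne_zero φ).mpr hc0)
    have h4 : A.valuation x = A.valuation (φ c) := by
      rwa [map_div₀, div_eq_one_iff_eq h3] at h1
    have h5 : A.valuation (φ c) ≤ 1 := h4 ▸ hx1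
    have h6 : A.valuation (ℓ : Qbar) < 1 := A.mem_nonunits_iff.mp hA
    have h7 : A.valuation (x - φ c) < 1 := by
      have : x - φ c = (x / φ c - 1) * φ c := by
        have := (map_ne_zero φ).mpr hc0
        field_simp
      rw [this, map_mul]
      refine lt_of_le_of_lt (mul_le_of_le_one_right zero_le h5) (lt_of_le_of_lt h2 ?_)
      rwa [pow_one]
    obtain ⟨a, ha⟩ := v.exists_valuation_sub_lt_of_integer (K := K)
      ((valuation_le_one_iff hv).mp h5) 1
    refine ⟨a, ?_⟩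
    have h8 : A.valuation (φ (algebraMap (𝓞 K) K a - c)) < 1 :=
      (valuation_lt_one_iff hv).mpr (by simpa using ha)
    have h9 : x - φ a = (x - φ c) - φ (algebraMap (𝓞 K) K a - c) := by
      rw [map_sub]
      have : algebraMap (𝓞 K) K a = (a : K) := rfl
      rw [this]
      ring
    rw [h9]
    exact lt_of_le_of_lt (A.valuation.map_sub _ _) (max_lt h7 h8)
  refine ⟨_, Finset.mem_image.mpr ⟨Ideal.Quotient.mk _ a, Finset.mem_univ _, rfl⟩, ?_⟩
  set a' : 𝓞 K := Quotient.out (Ideal.Quotient.mk (primeBelow φ A) a) with ha'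
  have h1 : a - a' ∈ primeBelow φ A := by
    rw [← Ideal.Quotient.eq, ha']
    exact (Ideal.Quotient.mk_out _).symm
  have h2 : A.valuation (φ ((a - a' : 𝓞 K) : K)) < 1 := valuation_int_lt_one_iff.mpr h1
  have h3 : x - φ (a' : K) = (x - φ a) + φ ((a - a' : 𝓞 K) : K) := by
    push_cast
    rw [map_sub]
    ring
  rw [h3]
  exact lt_of_le_of_lt (A.valuation.map_add _ _) (max_lt ha h2)

end Local

section OpenSubgroups

variable {A : ValuationSubring Qbar}

theorem exists_model_of_galois {N : Type} [Field N] [NumberField N] [IsGalois ℚ N]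
    (ψN : N →+* Qbar) {H : Subgroup GQ} (hH : H ≤ A.decompositionSubgroup ℚ)
    (hN : locGroup ψN A ≤ H) :
    ∃ (M : Type) (_ : Field M) (_ : NumberField M) (ψ : M →+* Qbar), H = locGroup ψ A := by
  set Hbar : Subgroup (N ≃ₐ[ℚ] N) := H.map (res ψN) with hHbar
  let M : IntermediateField ℚ N := IntermediateField.fixedField Hbar
  refine ⟨M, inferInstance, inferInstance, ψN.comp (algebraMap M N), le_antisymm ?_ ?_⟩
  · intro σ hσ
    refine ⟨hH hσ, fun x => ?_⟩
    show σ (ψN (x : N)) = ψN (x : N)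
    rw [← res_spec]
    congr 1
    exact x.2 ⟨res ψN σ, Subgroup.mem_map_of_mem _ hσ⟩
  · rintro σ ⟨hσD, hσ⟩
    have h1 : res ψN σ ∈ (IntermediateField.fixedField Hbar).fixingSubgroup := by
      rw [IntermediateField.mem_fixingSubgroup_iff]
      intro x hx
      apply ψN.injective
      rw [res_spec]
      exact hσ ⟨x, hx⟩
    rw [IntermediateField.fixingSubgroup_fixedField] at h1
    obtain ⟨h, hh, hres⟩ := h1
    have h2 : h⁻¹ * σ ∈ locGroup ψN A := by
      have h4 : h⁻¹ * σ ∈ A.decompositionSubgroup ℚ :=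
        (A.decompositionSubgroup ℚ).mul_mem ((A.decompositionSubgroup ℚ).inv_mem (hH hh)) hσD
      have h5 : h⁻¹ * σ ∈ fixer ψN := by
        rw [← res_eq_one_iff, map_mul, map_inv, hres, inv_mul_cancel]
      exact ⟨h4, h5⟩
    have h3 := mul_mem hh (hN h2)
    rwa [mul_inv_cancel_left] at h3

/-- **(iv)** every open subgroup of `D_A` is the absolute Galois group of the henselisation of a
number field. -/
theorem exists_model_of_fixingSubgroup_le {H : Subgroup GQ} (hH : H ≤ A.decompositionSubgroup ℚ)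
    (F : IntermediateField ℚ Qbar) [FiniteDimensional ℚ F]
    (hF : A.decompositionSubgroup ℚ ⊓ F.fixingSubgroup ≤ H) :
    ∃ (M : Type) (_ : Field M) (_ : NumberField M) (ψ : M →+* Qbar), H = locGroup ψ A := by
  obtain ⟨N, _, _, _, ψN, hψN⟩ := exists_galois_model F
  refine exists_model_of_galois ψN hH (le_trans ?_ hF)
  rintro σ ⟨hσD, hσ⟩
  refine ⟨hσD, ?_⟩
  show σ ∈ F.fixingSubgroup
  rw [IntermediateField.mem_fixingSubgroup_iff]
  intro x hx
  obtain ⟨y, rfl⟩ := hψN x hx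
  exact hσ y

theorem exists_model_of_locGroup_le {K : Type*} [Field K] [NumberField K] (φ : K →+* Qbar)
    {H : Subgroup GQ} (hH : H ≤ A.decompositionSubgroup ℚ) (hK : locGroup φ A ≤ H) :
    ∃ (M : Type) (_ : Field M) (_ : NumberField M) (ψ : M →+* Qbar), H = locGroup ψ A := by
  have := finiteDimensional_imageField φ
  refine exists_model_of_fixingSubgroup_le hH (imageField φ) ?_
  rw [← fixer_eq]
  exact hK

end OpenSubgroups

end Fermat.Agent.Bridge
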