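import Mathlib
import Fermat.Prelude.Def_ModularForm_HeckeOperator
import Fermat.Prelude.Thm_CongruenceSubgroup_one_mem_strictPeriods_Gamma0
import Fermat.Prelude.Sol.S_ModularFormClass_isBoundedAt_heckeT

/-!
The level `N` form `θ_N(z) = E₄(N z)`, its integral `q`-expansion, and the limits at `i∞` of its
`SL(2,ℤ)`-conjugates.  Shared by S20 (package G2) and S23 (L3).
-/

set_option autoImplicit false

namespace Fermat.Agent.Common

open UpperHalfPlane ModularForm CongruenceSubgroup EisensteinSeries Filter Topology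
open Matrix.SpecialLinearGroup
open scoped MatrixGroups ModularForm Manifold

noncomputable section

/-- A level one modular form tends to its constant term at `i∞`. -/
lemma tendsto_levelOne {k : ℤ} (f : ModularForm 𝒮ℒ k) :
    Tendsto (⇑f) atImInfty (𝓝 ((qExpansion 1 f).coeff 0)) := by
  have hΓ : (1 : ℝ) ∈ (𝒮ℒ : Subgroup (GL (Fin 2) ℝ)).strictPeriods := one_mem_strictPeriods_SL
  have hanal := ModularFormClass.analyticAt_cuspFunction_zero f one_pos hΓ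
  have hper := SlashInvariantFormClass.periodic_comp_ofComplex f hΓ
  rw [qExpansion_coeff_zero one_pos hanal hper, ← cuspFunction_apply_zero one_pos hanal hper]
  exact (hanal.continuousAt.tendsto.comp (qParam_tendsto_atImInfty one_pos)).congr
    (fun τ ↦ SlashInvariantFormClass.eq_cuspFunction f τ hΓ one_ne_zero)

lemma tendsto_E4 : Tendsto (⇑E₄) atImInfty (𝓝 1) := by
  have := tendsto_levelOne E₄
  rwa [E_qExpansion_coeff_zero (by norm_num) (by decide)] at this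

lemma det_eq' (g : SL(2, ℤ)) : g 0 0 * g 1 1 - g 0 1 * g 1 0 = 1 := by
  have h := g.det_coe
  rwa [Matrix.det_fin_two] at h

lemma mapGL_apply' (g : SL(2, ℤ)) (i j : Fin 2) :
    (mapGL ℝ g : GL (Fin 2) ℝ) i j = ((g i j : ℤ) : ℝ) := by
  simp

lemma exists_SL2 (a b c d : ℤ) (h : a * d - b * c = 1) :
    ∃ g : SL(2, ℤ), g 0 0 = a ∧ g 0 1 = b ∧ g 1 0 = c ∧ g 1 1 = d :=
  ⟨⟨!![a, b; c, d], by rw [Matrix.det_fin_two_of]; exact h⟩, rfl, rfl, rfl, rfl⟩

/-- Hermite normal form of `diag(N,1) * γ`. -/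
lemma hermite (N : ℕ) [NeZero N] (γ : SL(2, ℤ)) :
    ∃ (γ' : SL(2, ℤ)) (a b d : ℤ), 0 < a ∧ 0 < d ∧ a * d = N ∧ a = Int.gcd N (γ 1 0) ∧
      ∀ (had : (a : ℝ) * d ≠ 0),
        heckeDiagMatrix N * mapGL ℝ γ = mapGL ℝ γ' * upperTriangularGL a b d had := by
  have hN : (N : ℤ) ≠ 0 := by exact_mod_cast NeZero.ne N
  have hdet := det_eq' γ
  set c := γ 1 0 with hc
  set g : ℤ := ((Int.gcd N c : ℕ) : ℤ) with hg
  have hgpos : 0 < g := by
    rw [hg]; exact_mod_cast Int.gcd_pos_of_ne_zero_left c hN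
  obtain ⟨d, hd⟩ : g ∣ (N : ℤ) := Int.gcd_dvd_left _ _
  obtain ⟨v, hv⟩ : g ∣ c := Int.gcd_dvd_right _ _
  have hdpos : 0 < d := by
    have : 0 < g * d := by rw [← hd]; exact_mod_cast Nat.pos_of_ne_zero (NeZero.ne N)
    exact (pos_iff_pos_of_mul_pos this).mp hgpos
  have hcop1 : IsCoprime d v := by
    have h := Int.isCoprime_iff_gcd_eq_one.mpr
      (Int.gcd_div_gcd_div_gcd (i := (N : ℤ)) (j := c) (Int.gcd_pos_of_ne_zero_left c hN))
    rw [← hg] at h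
    rwa [show (N : ℤ) / g = d by rw [hd]; exact Int.mul_ediv_cancel_left _ hgpos.ne',
      show c / g = v by rw [hv]; exact Int.mul_ediv_cancel_left _ hgpos.ne'] at h
  have hcop2 : IsCoprime (γ 0 0) v := by
    refine ⟨γ 1 1, -(γ 0 1) * g, ?_⟩
    rw [hv] at hdet
    linear_combination hdet
  obtain ⟨s, t, hst⟩ : IsCoprime (d * γ 0 0) v := hcop1.mul_left hcop2
  obtain ⟨γ', h00, h01, h10, h11⟩ := exists_SL2 (d * γ 0 0) (-t) v s (by linear_combination hst)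
  refine ⟨γ', g, s * N * γ 0 1 + t * γ 1 1, d, hgpos, hdpos, hd.symm, rfl, fun had => ?_⟩
  have hNr : (N : ℝ) = g * d := by exact_mod_cast hd
  have hcr : ((γ 1 0 : ℤ) : ℝ) = g * v := by rw [← hc]; exact_mod_cast hv
  have hstr : (s : ℝ) * (d * (γ 0 0 : ℤ)) + t * v = 1 := by exact_mod_cast hst
  have hdetr : ((γ 0 0 : ℤ) : ℝ) * (γ 1 1 : ℤ) - (γ 0 1 : ℤ) * (γ 1 0 : ℤ) = 1 := by
    rw [← hc]; exact_mod_cast hdet
  ext i j
  fin_cases i <;> fin_cases j <;>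
    simp only [Fin.zero_eta, Fin.mk_one, Fin.isValue, Units.val_mul, Matrix.mul_apply,
      Fin.sum_univ_two, val_heckeDiagMatrix (NeZero.ne N), val_upperTriangularGL, mapGL_apply',
      h00, h01, h10, h11, Matrix.of_apply, Matrix.cons_val', Matrix.cons_val_zero,
      Matrix.cons_val_one, Matrix.cons_val_fin_one] <;> push_cast
  · rw [hNr]; ring
  · rw [hcr] at hdetr
    rw [hNr]
    linear_combination (-(g * d * (γ 0 1 : ℤ)) : ℝ) * hstr - (t * d : ℝ) * hdetr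
  · rw [hcr]; ring
  · rw [hcr] at hdetr
    rw [hNr]
    linear_combination (-((γ 1 1 : ℤ)) : ℝ) * hstr + (s * d : ℝ) * hdetr


lemma det_upperTriangularGL (a b d : ℝ) (had : a * d ≠ 0) :
    ((upperTriangularGL a b d had).det : ℝ) = a * d := by
  rw [Matrix.GeneralLinearGroup.val_det_apply, val_upperTriangularGL, Matrix.det_fin_two_of]
  ring

lemma slash_upperTriangularGL_apply (k : ℤ) {a b d : ℝ} (had : 0 < a * d) (f : ℍ → ℂ)
    (τ : ℍ) :
    (f ∣[k] upperTriangularGL a b d had.ne') τ =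
      ((a * d : ℝ) : ℂ) ^ (k - 1) * (d : ℂ) ^ (-k) * f (upperTriangularGL a b d had.ne' • τ) := by
  have hσ : UpperHalfPlane.σ (upperTriangularGL a b d had.ne') = .refl ℝ ℂ := by
    rw [UpperHalfPlane.σ, if_pos (by rw [det_upperTriangularGL]; exact had)]
  have hden : UpperHalfPlane.denom (upperTriangularGL a b d had.ne') τ = d := by
    simp [UpperHalfPlane.denom]
  rw [ModularForm.slash_apply, hσ, det_upperTriangularGL, hden, abs_of_pos had]
  simp only [ContinuousAlgEquiv.refl_apply]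
  ring

lemma tendsto_slash_upperTriangularGL (k : ℤ) {a b d : ℝ} (had : 0 < a * d) {f : ℍ → ℂ} {L : ℂ}
    (hf : Tendsto f atImInfty (𝓝 L)) :
    Tendsto (f ∣[k] upperTriangularGL a b d had.ne') atImInfty
      (𝓝 (((a * d : ℝ) : ℂ) ^ (k - 1) * (d : ℂ) ^ (-k) * L)) := by
  have h1 : Tendsto (fun τ : ℍ => upperTriangularGL a b d had.ne' • τ) atImInfty atImInfty :=
    tendsto_smul_atImInfty (by simp)
  have h2 := (hf.comp h1).const_mul (((a * d : ℝ) : ℂ) ^ (k - 1) * (d : ℂ) ^ (-k))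
  refine h2.congr fun τ => ?_
  rw [slash_upperTriangularGL_apply k had]
  rfl

lemma E4_slash (γ : SL(2, ℤ)) : ⇑E₄ ∣[(4 : ℤ)] mapGL ℝ γ = ⇑E₄ :=
  SlashInvariantFormClass.slash_action_eq E₄ _ ⟨γ, rfl⟩

/-- `diag(N,1) γ = γ' diag(N,1)` for `γ ∈ Γ₀(N)`. -/
lemma heckeDiag_mul_Gamma0 (N : ℕ) [NeZero N] (γ : SL(2, ℤ)) (hγ : γ ∈ Gamma0 N) :
    ∃ γ' : SL(2, ℤ), heckeDiagMatrix N * mapGL ℝ γ = mapGL ℝ γ' * heckeDiagMatrix N := by
  obtain ⟨e, he⟩ : (N : ℤ) ∣ γ 1 0 :=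
    (ZMod.intCast_zmod_eq_zero_iff_dvd _ _).mp (Gamma0_mem.mp hγ)
  have hdet := det_eq' γ
  obtain ⟨γ', h00, h01, h10, h11⟩ := exists_SL2 (γ 0 0) (N * γ 0 1) e (γ 1 1)
    (by rw [he] at hdet; linear_combination hdet)
  refine ⟨γ', ?_⟩
  have her : ((γ 1 0 : ℤ) : ℝ) = N * e := by exact_mod_cast he
  ext i j
  fin_cases i <;> fin_cases j <;>
    simp only [Fin.zero_eta, Fin.mk_one, Fin.isValue, Units.val_mul, Matrix.mul_apply,
      Fin.sum_univ_two, val_heckeDiagMatrix (NeZero.ne N), mapGL_apply',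
      h00, h01, h10, h11, Matrix.of_apply, Matrix.cons_val', Matrix.cons_val_zero,
      Matrix.cons_val_one, Matrix.cons_val_fin_one] <;> push_cast
  · ring
  · ring
  · rw [her]; ring
  · ring

/-- `N³ E₄(N z)` as a modular form of level `Γ₀(N)`. -/
def thetaRaw (N : ℕ) [NeZero N] : ModularForm (Gamma0 N) 4 where
  toFun := ⇑E₄ ∣[(4 : ℤ)] heckeDiagMatrix N
  slash_action_eq' := by
    rintro _ ⟨γ, hγ, rfl⟩
    obtain ⟨γ', h⟩ := heckeDiag_mul_Gamma0 N γ hγ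
    rw [← SlashAction.slash_mul, h, SlashAction.slash_mul, E4_slash]
  holo' := (ModularFormClass.holo E₄).slash 4 _
  bdd_at_cusps' := by
    intro c hc
    obtain ⟨g, hg⟩ :=
      P2MW.S_ModularFormClass_isBoundedAt_heckeT.ModularForm.S06W2.exists_heckeDiagMatrix_eq_map N
    rw [hg]
    refine P2MW.S_ModularFormClass_isBoundedAt_heckeT.ModularForm.S06W2.isBoundedAt_slash_ratCast
      E₄ g ?_
    exact (Subgroup.IsArithmetic.isCusp_iff_isCusp_SL2Z _).mp hc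

/-- `θ_N(z) = E₄(N z)` as a modular form of level `Γ₀(N)`. -/
def theta (N : ℕ) [NeZero N] : ModularForm (Gamma0 N) 4 := ((N : ℂ)⁻¹) ^ 3 • thetaRaw N

lemma coe_theta (N : ℕ) [NeZero N] :
    ⇑(theta N) = ((N : ℂ)⁻¹) ^ 3 • (⇑E₄ ∣[(4 : ℤ)] heckeDiagMatrix N) := rfl

lemma theta_apply (N : ℕ) [NeZero N] (τ : ℍ) : theta N τ = E₄ (heckeDiagMatrix N • τ) := by
  have hN : (N : ℂ) ≠ 0 := by exact_mod_cast NeZero.ne N
  rw [coe_theta, Pi.smul_apply, slash_heckeDiagMatrix_apply 4 (NeZero.ne N), smul_eq_mul]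
  norm_num
  field_simp


lemma tendsto_theta_slash (N : ℕ) [NeZero N] (γ : SL(2, ℤ)) :
    Tendsto (⇑(theta N) ∣[(4 : ℤ)] γ) atImInfty
      (𝓝 ((((Int.gcd N (γ 1 0) : ℕ) : ℂ) / N) ^ 4)) := by
  obtain ⟨γ', a, b, d, ha, hd, had, hag, h⟩ := hermite N γ
  have har : (0 : ℝ) < a := by exact_mod_cast ha
  have hdr : (0 : ℝ) < d := by exact_mod_cast hd
  have hpos : (0 : ℝ) < (a : ℝ) * d := mul_pos har hdr
  have hfun : ⇑(theta N) ∣[(4 : ℤ)] γ =
      ((N : ℂ)⁻¹) ^ 3 • (⇑E₄ ∣[(4 : ℤ)] upperTriangularGL a b d hpos.ne') := by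
    rw [coe_theta, SL_smul_slash]
    congr 1
    change (⇑E₄ ∣[(4 : ℤ)] heckeDiagMatrix N) ∣[(4 : ℤ)] mapGL ℝ γ = _
    rw [← SlashAction.slash_mul, h hpos.ne', SlashAction.slash_mul, E4_slash]
  rw [hfun]
  have h1 := (tendsto_slash_upperTriangularGL 4 (b := b) hpos tendsto_E4).const_smul
    (((N : ℂ)⁻¹) ^ 3)
  have hval : (((Int.gcd N (γ 1 0) : ℕ) : ℂ) / N) ^ 4 =
      ((N : ℂ)⁻¹) ^ 3 • ((((a : ℝ) * d : ℝ) : ℂ) ^ ((4 : ℤ) - 1) * (((d : ℝ)) : ℂ) ^ (-(4 : ℤ)) * 1) := by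
    have hN : (N : ℂ) ≠ 0 := by exact_mod_cast NeZero.ne N
    have hdc : (d : ℂ) ≠ 0 := by exact_mod_cast hd.ne'
    have hNc : (N : ℂ) = a * d := by exact_mod_cast had.symm
    have hac : ((Int.gcd N (γ 1 0) : ℕ) : ℂ) = a := by
      rw [hag]; simp
    rw [hac, smul_eq_mul]
    push_cast
    rw [← hNc]
    norm_num
    rw [hNc]
    field_simp
  rw [hval]
  exact h1

lemma tendsto_theta (N : ℕ) [NeZero N] : Tendsto (⇑(theta N)) atImInfty (𝓝 1) := by
  have h := tendsto_theta_slash N 1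
  have hN : (N : ℂ) ≠ 0 := by exact_mod_cast NeZero.ne N
  simpa [hN] using h

lemma theta_slash_ne (N : ℕ) [NeZero N] (γ : SL(2, ℤ)) (hγ : γ ∉ Gamma0 N) :
    ⇑(theta N) ∣[(4 : ℤ)] γ ≠ ⇑(theta N) := by
  intro h
  have h1 := tendsto_theta_slash N γ
  rw [h] at h1
  have h2 := tendsto_nhds_unique h1 (tendsto_theta N)
  apply hγ
  rw [Gamma0_mem, ZMod.intCast_zmod_eq_zero_iff_dvd]
  set g := Int.gcd N (γ 1 0) with hg
  have hNpos : 0 < N := Nat.pos_of_ne_zero (NeZero.ne N)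
  have hgN : g ∣ N := by
    have := Int.gcd_dvd_left (N : ℤ) (γ 1 0)
    exact_mod_cast this
  have hle : g ≤ N := Nat.le_of_dvd hNpos hgN
  have h3 : ((g : ℝ) / N) ^ 4 = 1 := by
    have : ((((g : ℝ) / N) ^ 4 : ℝ) : ℂ) = ((1 : ℝ) : ℂ) := by push_cast; exact h2
    exact Complex.ofReal_injective this
  have h4 : (g : ℝ) / N = 1 := by
    have hnn : (0 : ℝ) ≤ (g : ℝ) / N := by positivity
    exact (pow_eq_one_iff_of_nonneg hnn (by norm_num)).mp h3
  have h5 : (g : ℝ) = N := by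
    have hN : (N : ℝ) ≠ 0 := by exact_mod_cast NeZero.ne N
    field_simp at h4
    exact h4
  have h6 : g = N := by exact_mod_cast h5
  rw [← h6]
  exact Int.gcd_dvd_right _ _


local notation "𝕢" => Function.Periodic.qParam

lemma E4_coeff_int (m : ℕ) : ∃ z : ℤ, (qExpansion 1 E₄).coeff m = z := by
  rw [E_qExpansion_coeff (by norm_num) (by decide)]
  split_ifs with h
  · exact ⟨1, by simp⟩
  · refine ⟨240 * (ArithmeticFunction.sigma 3 m : ℤ), ?_⟩
    have hb : bernoulli 4 = -1 / 30 := by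
      rw [bernoulli_eq_bernoulli'_of_ne_one (by norm_num), bernoulli'_four]
    rw [hb]
    push_cast
    norm_num

lemma qParam_heckeDiag (N : ℕ) [NeZero N] (τ : ℍ) :
    𝕢 1 ((heckeDiagMatrix N • τ : ℍ) : ℂ) = 𝕢 1 (τ : ℂ) ^ N := by
  rw [coe_heckeDiagMatrix_smul (NeZero.ne N), Function.Periodic.qParam, Function.Periodic.qParam,
    ← Complex.exp_nat_mul]
  congr 1
  ring

lemma theta_coeff (N : ℕ) [NeZero N] (n : ℕ) :
    (qExpansion 1 (theta N)).coeff n =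
      if N ∣ n then (qExpansion 1 E₄).coeff (n / N) else 0 := by
  have hNpos : 0 < N := Nat.pos_of_ne_zero (NeZero.ne N)
  refine (ModularFormClass.qExpansion_coeff_unique (f := theta N)
    (c := fun n => if N ∣ n then (qExpansion 1 E₄).coeff (n / N) else 0) one_pos
    (one_mem_strictPeriods_Gamma0 N) (fun τ => ?_) n).symm
  have h := ModularForm.hasSum_qExpansion (f := E₄) one_pos one_mem_strictPeriods_SL
    (heckeDiagMatrix N • τ)
  rw [← theta_apply] at h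
  have hinj : Function.Injective (fun m : ℕ => N * m) := fun a b hab =>
    Nat.eq_of_mul_eq_mul_left hNpos hab
  refine (hinj.hasSum_iff ?_).mp ?_
  · intro x hx
    have : ¬ N ∣ x := fun ⟨m, hm⟩ => hx ⟨m, hm.symm⟩
    simp [this]
  · convert h using 2 with m
    simp only [Function.comp_apply, dvd_mul_right, if_true, Nat.mul_div_cancel_left _ hNpos,
      smul_eq_mul, qParam_heckeDiag, ← pow_mul]

lemma theta_coeff_int (N : ℕ) [NeZero N] (n : ℕ) :
    ∃ z : ℤ, (qExpansion 1 (theta N)).coeff n = z := by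
  rw [theta_coeff]
  split_ifs
  · exact E4_coeff_int _
  · exact ⟨0, by simp⟩

lemma theta_slash_eq (N : ℕ) [NeZero N] (γ : SL(2, ℤ)) (hγ : γ ∈ Gamma0 N) :
    ⇑(theta N) ∣[(4 : ℤ)] γ = ⇑(theta N) :=
  SlashInvariantFormClass.slash_action_eq (theta N) _ ⟨γ, hγ, rfl⟩

lemma theta_slash_eq_iff (N : ℕ) [NeZero N] (γ : SL(2, ℤ)) :
    ⇑(theta N) ∣[(4 : ℤ)] γ = ⇑(theta N) ↔ γ ∈ Gamma0 N :=
  ⟨fun h => by_contra fun hγ => theta_slash_ne N γ hγ h, theta_slash_eq N γ⟩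

end

end Fermat.Agent.Common
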