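import Mathlib

set_option autoImplicit false

open UpperHalfPlane ModularForm EisensteinSeries MatrixGroups ModularFormClass OnePoint
open scoped Manifold

namespace Fermat.Agent.Common.JPoly

local notation "Δ" => ModularForm.discriminant

/-- Package a slash-invariant holomorphic function bounded at `i∞` as a level one form. -/
theorem exists_modularForm (k : ℤ) (g : ℍ → ℂ) (hg : MDiff g)
    (hslash : ∀ γ : SL(2, ℤ), g ∣[k] γ = g) (hb : IsBoundedAtImInfty g) :
    ∃ G : ModularForm 𝒮ℒ k, ⇑G = g := by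
  refine ⟨{ toFun := g
            slash_action_eq' := fun _ ⟨γ, hγ⟩ ↦ hγ ▸ hslash γ
            holo' := hg
            bdd_at_cusps' := ?_ }, rfl⟩
  intro c hc
  rw [Subgroup.IsArithmetic.isCusp_iff_isCusp_SL2Z] at hc
  rw [isBoundedAt_iff_forall_SL2Z hc]
  intro γ _
  rw [hslash γ]
  exact hb

theorem exists_polynomial_aux (m : ℕ) : ∀ (k : ℤ) (_ : k = 12 * (m : ℤ)) (G : ModularForm 𝒮ℒ k),
    ∃ p : Polynomial ℂ, p.natDegree ≤ m ∧
      ∀ τ : ℍ, G τ = Δ τ ^ m * p.eval (E₄ τ ^ 3 / Δ τ) := by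
  induction m with
  | zero =>
    intro k hk G
    obtain rfl : k = 0 := by simpa using hk
    obtain ⟨c, hc⟩ := levelOne_weight_zero_const G
    refine ⟨Polynomial.C c, by simp, fun τ => ?_⟩
    have := congrFun hc τ
    simpa using this
  | succ m ih =>
    intro k hk G
    set c : ℂ := (qExpansion 1 G).coeff 0 with hc
    have hk' : ((3 * (m + 1) : ℕ) : ℤ) * 4 = k := by rw [hk]; push_cast; ring
    obtain ⟨E, hEcoe⟩ : ∃ E : ModularForm 𝒮ℒ k, (E : ℍ → ℂ) = (⇑E₄) ^ (3 * (m + 1)) :=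
      ⟨ModularForm.mcast hk' (E₄.pow (3 * (m + 1))) rfl, ModularForm.coe_pow _ _⟩
    have hE0 : (qExpansion 1 E).coeff 0 = 1 := by
      have h1 : qExpansion 1 E = qExpansion 1 E₄ ^ (3 * (m + 1)) := by
        rw [← ModularForm.qExpansion_pow one_pos one_mem_strictPeriods_SL, hEcoe,
          ModularForm.coe_pow]
      rw [h1, PowerSeries.coeff_zero_eq_constantCoeff, map_pow,
        ← PowerSeries.coeff_zero_eq_constantCoeff]
      have : (qExpansion 1 E₄).coeff 0 = 1 := E_qExpansion_coeff_zero _ ⟨2, rfl⟩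
      rw [this, one_pow]
    have hcusp : (qExpansion 1 (G - c • E : ModularForm 𝒮ℒ k)).coeff 0 = 0 := by
      have h1 : qExpansion 1 (G - c • E : ModularForm 𝒮ℒ k)
          = qExpansion 1 G - c • qExpansion 1 E := by
        have h2 := ModularForm.qExpansion_sub one_pos one_mem_strictPeriods_SL G (c • E)
        have h3 := ModularForm.qExpansion_smul one_pos one_mem_strictPeriods_SL c E
        rw [← h3]
        exact h2
      rw [h1, map_sub, PowerSeries.coeff_smul, hE0, smul_eq_mul, mul_one, sub_self]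
    obtain ⟨p, hp, hpe⟩ := ih (k - 12) (by rw [hk]; push_cast; ring)
      (CuspForm.discriminantEquiv (toCuspForm (G - c • E : ModularForm 𝒮ℒ k) hcusp))
    refine ⟨p + Polynomial.C c * Polynomial.X ^ (m + 1), ?_, fun τ => ?_⟩
    · refine (Polynomial.natDegree_add_le _ _).trans (max_le (by omega) ?_)
      exact Polynomial.natDegree_C_mul_X_pow_le c (m + 1)
    · have hΔ : Δ τ ≠ 0 := discriminant_ne_zero τ
      have h2 := hpe τ
      have h1 : (CuspForm.discriminantEquiv (toCuspForm (G - c • E : ModularForm 𝒮ℒ k) hcusp)) τ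
          = (G τ - c * E₄ τ ^ (3 * (m + 1))) / Δ τ := by
        have : E τ = E₄ τ ^ (3 * (m + 1)) := by rw [hEcoe]; rfl
        rw [← this]
        rfl
      rw [h1] at h2
      simp only [Polynomial.eval_add, Polynomial.eval_mul, Polynomial.eval_C, Polynomial.eval_pow,
        Polynomial.eval_X]
      rw [div_eq_iff hΔ] at h2
      rw [div_pow, mul_add, ← pow_mul]
      have h3 : Δ τ ^ (m + 1) * (c * (E₄ τ ^ (3 * (m + 1)) / Δ τ ^ (m + 1)))
          = c * E₄ τ ^ (3 * (m + 1)) := by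
        field_simp
      rw [h3]
      linear_combination h2

/-- Every level one form of weight `12 m` is `Δ ^ m` times a polynomial of degree `≤ m` in
`j = E₄ ^ 3 / Δ`. -/
theorem exists_polynomial_of_modularForm (m : ℕ) (G : ModularForm 𝒮ℒ (12 * (m : ℤ))) :
    ∃ p : Polynomial ℂ, p.natDegree ≤ m ∧
      ∀ τ : ℍ, G τ = Δ τ ^ m * p.eval (E₄ τ ^ 3 / Δ τ) :=
  exists_polynomial_aux m _ rfl G

theorem discriminant_smul (γ : SL(2, ℤ)) (τ : ℍ) :
    Δ (γ • τ) = denom γ τ ^ (12 : ℤ) * Δ τ := by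
  have := SlashInvariantForm.slash_action_eqn'' CuspForm.discriminant
    (show (γ : GL (Fin 2) ℝ) ∈ 𝒮ℒ from ⟨γ, rfl⟩) τ
  simpa using this

/-- An `SL(2,ℤ)`-invariant holomorphic function on `ℍ` such that `Δ ^ m * f` is bounded at `i∞`
is a polynomial of degree `≤ m` in `j = E₄ ^ 3 / Δ`. -/
theorem exists_polynomial_of_invariant (f : ℍ → ℂ) (hf : MDiff f)
    (hinv : ∀ (γ : SL(2, ℤ)) (τ : ℍ), f (γ • τ) = f τ) (m : ℕ)
    (hbdd : IsBoundedAtImInfty (fun τ => Δ τ ^ m * f τ)) :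
    ∃ p : Polynomial ℂ, p.natDegree ≤ m ∧ ∀ τ : ℍ, f τ = p.eval (E₄ τ ^ 3 / Δ τ) := by
  have hΔm : ∀ γ : SL(2, ℤ), (fun τ => Δ τ ^ m * f τ) ∣[12 * (m : ℤ)] γ
      = fun τ => Δ τ ^ m * f τ := by
    intro γ
    ext τ
    rw [ModularForm.SL_slash_apply, hinv, discriminant_smul]
    have hd : denom γ τ ≠ 0 := denom_ne_zero _ τ
    rw [mul_pow, ← zpow_natCast (denom γ τ ^ (12 : ℤ)), ← zpow_mul, zpow_neg]
    field_simp
  have hmd : MDiff (fun τ => Δ τ ^ m * f τ) :=
    (CuspForm.discriminant.holo'.pow m).mul hf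
  obtain ⟨G, hG⟩ := exists_modularForm (12 * (m : ℤ)) _ hmd hΔm hbdd
  obtain ⟨p, hp, hpe⟩ := exists_polynomial_of_modularForm m G
  refine ⟨p, hp, fun τ => ?_⟩
  have h := hpe τ
  rw [hG] at h
  exact mul_left_cancel₀ (pow_ne_zero m (discriminant_ne_zero τ)) h

end Fermat.Agent.Common.JPoly
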